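import Fermat.Agent.MWG.Sig2

/-!
# S17 (H), global part: the height on the Jacobian
-/

set_option autoImplicit false
set_option linter.unusedSectionVars false
set_option linter.style.haveILetI false

noncomputable section

namespace Fermat.Agent.MWG

open AlgebraicCurve Fermat.Agent.Curves Fermat.Agent.PicFlat Fermat.Agent.MWH SemilinearAut
  Fermat.Agent.GoodRed
open scoped Pointwise IntermediateField

variable {K F : Type*} [Field K] [IsAlgClosed K] [CharZero K] [Field F] [Algebra K F]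
  [IsFunctionField K F] {𝒢 : Glob K F} {E₀ : Emb K F}

/-! ### linear equivalence -/

/-- linear equivalence -/
def Lq (D D' : Divisor K F) : Prop := ∃ f : F, f ≠ 0 ∧ divisorOf f = D' - D

theorem divisorOf_mul' {f g : F} (hf : f ≠ 0) (hg : g ≠ 0) :
    divisorOf (k := K) (f * g) = divisorOf f + divisorOf g := by
  ext P
  rw [Finsupp.add_apply, divisorOf_apply, divisorOf_apply, divisorOf_apply, P.ord_mul hf hg]

theorem divisorOf_inv' (f : F) : divisorOf (k := K) f⁻¹ = -divisorOf f := by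
  ext P
  rw [Finsupp.neg_apply, divisorOf_apply, divisorOf_apply, P.ord_inv]

theorem Lq.refl (D : Divisor K F) : Lq D D := by
  refine ⟨1, one_ne_zero, ?_⟩
  rw [sub_self]
  ext P
  rw [divisorOf_apply, P.ord_one]; rfl

theorem Lq.symm {D D' : Divisor K F} (h : Lq D D') : Lq D' D := by
  obtain ⟨f, hf0, hf⟩ := h
  refine ⟨f⁻¹, inv_ne_zero hf0, ?_⟩
  rw [divisorOf_inv', hf]
  abel

theorem Lq.trans {D D' D'' : Divisor K F} (h : Lq D D') (h' : Lq D' D'') : Lq D D'' := by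
  obtain ⟨f, hf0, hf⟩ := h
  obtain ⟨f', hf0', hf'⟩ := h'
  refine ⟨f * f', mul_ne_zero hf0 hf0', ?_⟩
  rw [divisorOf_mul' hf0 hf0', hf, hf']
  abel

theorem Lq.add {D D' E E' : Divisor K F} (h : Lq D D') (h' : Lq E E') :
    Lq (D + E) (D' + E') := by
  obtain ⟨f, hf0, hf⟩ := h
  obtain ⟨f', hf0', hf'⟩ := h'
  refine ⟨f * f', mul_ne_zero hf0 hf0', ?_⟩
  rw [divisorOf_mul' hf0 hf0', hf, hf']
  abel

theorem Lq.neg {D D' : Divisor K F} (h : Lq D D') : Lq (-D) (-D') := by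
  obtain ⟨f, hf0, hf⟩ := h
  refine ⟨f⁻¹, inv_ne_zero hf0, ?_⟩
  rw [divisorOf_inv', hf]
  abel

theorem Lq.sub {D D' E E' : Divisor K F} (h : Lq D D') (h' : Lq E E') :
    Lq (D - E) (D' - E') := by
  rw [sub_eq_add_neg, sub_eq_add_neg]
  exact h.add h'.neg

theorem prin_iff {D : Divisor K F} {n : ℤ} : Prin 𝒢 D n ↔ Lq (Finsupp.single 𝒢.inf n) D := by
  constructor
  · rintro ⟨f, hf0, hf⟩
    exact ⟨f, hf0, by rw [← hf]; abel⟩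
  · rintro ⟨f, hf0, hf⟩
    exact ⟨f, hf0, by rw [hf]; abel⟩

/-- a group of fixed divisor classes of degree `0` -/
structure Cls (𝒢 : Glob K F) (X : Type*) [AddCommGroup X] where
  δ : X → Divisor K F
  fix : ∀ x, 𝒢.FixD (δ x)
  deg : ∀ x, Divisor.degree (δ x) = 0
  add : ∀ x y, Lq (δ (x + y)) (δ x + δ y)
  inj : ∀ x y, Lq (δ x) (δ y) → x = y

section Main

variable {X : Type*} [AddCommGroup X] (𝒞 : Cls 𝒢 X)

theorem Cls.zero : Lq (𝒞.δ 0) 0 := by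
  have h := 𝒞.add 0 0
  rw [add_zero] at h
  have h2 := h.sub (Lq.refl (𝒞.δ 0))
  rw [sub_self, add_sub_cancel_right] at h2
  exact h2.symm

/-- the base degree -/
def kk (𝒢 : Glob K F) : ℕ := 𝒢.c.natAbs + 1

/-- `s ∈ |x + d₀ ∞|` -/
structure Rep (𝒞 : Cls 𝒢 X) (E₀ : Emb K F) (x : X) (s : Finset (Place K F)) : Prop where
  ss : SS 𝒢 s
  eq : Lq (𝒞.δ x + Finsupp.single 𝒢.inf ((kk 𝒢 * E₀.m : ℕ) : ℤ)) (dvs s)

variable {𝒞}

theorem Rep.card {x : X} {s : Finset (Place K F)} (h : Rep 𝒞 E₀ x s) :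
    s.card = kk 𝒢 * E₀.m := by
  obtain ⟨f, -, hf⟩ := h.eq
  have h1 := congrArg Divisor.degree hf
  rw [degree_divisorOf, map_sub, degree_dvs, map_add, 𝒞.deg, degree_single_one] at h1
  have : (s.card : ℤ) = ((kk 𝒢 * E₀.m : ℕ) : ℤ) := by linarith
  exact_mod_cast this

theorem exists_rep (𝒞 : Cls 𝒢 X) (E₀ : Emb K F) (x : X) (T : Finset (Place K F)) :
    ∃ s, Rep 𝒞 E₀ x s ∧ Disjoint s T := by
  classical
  have hkm := le_mul_m E₀ (kk 𝒢)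
  have hk : kk 𝒢 = 𝒢.c.natAbs + 1 := rfl
  have hI : 𝒢.FixD (𝒞.δ x + Finsupp.single 𝒢.inf ((kk 𝒢 * E₀.m : ℕ) : ℤ)) :=
    GD.FixD.add (𝒞.fix x) (GD.FixD.single (𝒢 := 𝒢.toGD) 𝒢.fixinf _)
  obtain ⟨f, hf0, hfix, s, hsT, hs⟩ := moving (𝒢 := 𝒢.toGD) 𝒢.rr hI
    (by rw [map_add, 𝒞.deg, degree_single_one]; omega)
    (by rw [map_add, 𝒞.deg, degree_single_one]; omega) (insert 𝒢.inf T)
  have hD' : 𝒢.FixD (dvs s) := by
    rw [← hs]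
    exact GD.FixD.add (GD.Fix.div hfix) hI
  rw [Finset.disjoint_insert_right] at hsT
  exact ⟨s, ⟨⟨stable_of_fixD hD', hsT.1⟩, f, hf0, by rw [← hs]; abel⟩, hsT.2⟩

/-- complement of one class -/
theorem Rep.prin2 {x y : X} {s t : Finset (Place K F)} (hs : Rep 𝒞 E₀ x s) (ht : Rep 𝒞 E₀ y t)
    (hxy : x + y = 0) : Prin 𝒢 (dvs s + dvs t) ((2 * kk 𝒢 * E₀.m : ℕ) : ℤ) := by
  rw [prin_iff]
  have h1 := hs.eq.add ht.eq
  have h2 := 𝒞.add x y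
  rw [hxy] at h2
  have h3 : Lq (𝒞.δ x + 𝒞.δ y) 0 := h2.symm.trans 𝒞.zero
  have h4 := h3.symm.add (Lq.refl (Finsupp.single 𝒢.inf ((2 * kk 𝒢 * E₀.m : ℕ) : ℤ)))
  rw [zero_add] at h4
  refine h4.trans ?_
  have e : 𝒞.δ x + 𝒞.δ y + Finsupp.single 𝒢.inf ((2 * kk 𝒢 * E₀.m : ℕ) : ℤ) =
      𝒞.δ x + Finsupp.single 𝒢.inf ((kk 𝒢 * E₀.m : ℕ) : ℤ) +
      (𝒞.δ y + Finsupp.single 𝒢.inf ((kk 𝒢 * E₀.m : ℕ) : ℤ)) := by
    have : ((2 * kk 𝒢 * E₀.m : ℕ) : ℤ) = ((kk 𝒢 * E₀.m : ℕ) : ℤ) + ((kk 𝒢 * E₀.m : ℕ) : ℤ) := by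
      push_cast; ring
    rw [this, Finsupp.single_add]
    abel
  rw [e]
  exact h1

theorem Rep.prin3 {x y z : X} {s t u : Finset (Place K F)} (hs : Rep 𝒞 E₀ x s)
    (ht : Rep 𝒞 E₀ y t) (hu : Rep 𝒞 E₀ z u) (hxyz : x + y + z = 0) :
    Prin 𝒢 (dvs s + dvs t + dvs u) ((3 * kk 𝒢 * E₀.m : ℕ) : ℤ) := by
  rw [prin_iff]
  have h1 := (hs.eq.add ht.eq).add hu.eq
  have h2 := 𝒞.add (x + y) z
  rw [hxyz] at h2
  have h3 : Lq (𝒞.δ x + 𝒞.δ y + 𝒞.δ z) 0 :=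
    (((𝒞.add x y).add (Lq.refl (𝒞.δ z))).symm.trans h2.symm).trans 𝒞.zero
  have h4 := h3.symm.add (Lq.refl (Finsupp.single 𝒢.inf ((3 * kk 𝒢 * E₀.m : ℕ) : ℤ)))
  rw [zero_add] at h4
  refine h4.trans ?_
  have e : 𝒞.δ x + 𝒞.δ y + 𝒞.δ z + Finsupp.single 𝒢.inf ((3 * kk 𝒢 * E₀.m : ℕ) : ℤ) =
      𝒞.δ x + Finsupp.single 𝒢.inf ((kk 𝒢 * E₀.m : ℕ) : ℤ) +
      (𝒞.δ y + Finsupp.single 𝒢.inf ((kk 𝒢 * E₀.m : ℕ) : ℤ)) +
      (𝒞.δ z + Finsupp.single 𝒢.inf ((kk 𝒢 * E₀.m : ℕ) : ℤ)) := by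
    have : ((3 * kk 𝒢 * E₀.m : ℕ) : ℤ) = ((kk 𝒢 * E₀.m : ℕ) : ℤ) + ((kk 𝒢 * E₀.m : ℕ) : ℤ) +
      ((kk 𝒢 * E₀.m : ℕ) : ℤ) := by push_cast; ring
    rw [this, Finsupp.single_add, Finsupp.single_add]
    abel
  rw [e]
  exact h1

/-- `β` depends only on the class of the first argument -/
theorem exists_wd1 (h : Inp 𝒢) (hB : Base 𝒢 E₀) (𝒞 : Cls 𝒢 X) : ∃ C : ℝ, 0 ≤ C ∧
    ∀ (x z : X) (s s' t : Finset (Place K F)), Rep 𝒞 E₀ x s → Rep 𝒞 E₀ x s' → Rep 𝒞 E₀ z t →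
      Disjoint s t → Disjoint s' t →
      |bet E₀ 𝒢.A (dvs s) (dvs t) - bet E₀ 𝒢.A (dvs s') (dvs t)| ≤ C := by
  classical
  obtain ⟨C, hC⟩ := exists_B4 h hB (k := 2 * kk 𝒢) (by unfold kk; omega) (kk 𝒢 * E₀.m)
  refine ⟨2 * |C|, by positivity, fun x z s s' t hs hs' ht hst hst' => ?_⟩
  obtain ⟨u, hu, huT⟩ := exists_rep 𝒞 E₀ (-x) (s ∪ s' ∪ t)
  rw [Finset.disjoint_union_right, Finset.disjoint_union_right] at huT
  have key : ∀ s, Rep 𝒞 E₀ x s → Disjoint s t → Disjoint u s →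
      |bet E₀ 𝒢.A (dvs s) (dvs t) + bet E₀ 𝒢.A (dvs u) (dvs t)| ≤ |C| := by
    intro s hs hst hus
    have h1 := hs.prin2 hu (add_neg_cancel x)
    rw [← dvs_union hus.symm] at h1
    have h2 := hC (s ∪ u) t (hs.ss.union hu.ss) ht.ss h1
      (Finset.disjoint_union_left.mpr ⟨hst, huT.2⟩) ht.card
    rw [dvs_union hus.symm, bet_add_left] at h2
    exact h2.trans (le_abs_self C)
  have h1 := abs_le.mp (key s hs hst huT.1.1)
  have h2 := abs_le.mp (key s' hs' hst' huT.1.2)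
  rw [abs_le]
  constructor <;> linarith [h1.1, h1.2, h2.1, h2.2]

/-- `β` depends only on the classes -/
theorem exists_wd (h : Inp 𝒢) (hB : Base 𝒢 E₀) (𝒞 : Cls 𝒢 X) : ∃ C : ℝ, 0 ≤ C ∧
    ∀ (x z : X) (s s' t t' : Finset (Place K F)), Rep 𝒞 E₀ x s → Rep 𝒞 E₀ x s' →
      Rep 𝒞 E₀ z t → Rep 𝒞 E₀ z t' → Disjoint s t → Disjoint s' t' →
      |bet E₀ 𝒢.A (dvs s) (dvs t) - bet E₀ 𝒢.A (dvs s') (dvs t')| ≤ C := by
  classical
  obtain ⟨C, hC0, hC⟩ := exists_wd1 h hB 𝒞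
  refine ⟨3 * C, by positivity, fun x z s s' t t' hs hs' ht ht' hst hst' => ?_⟩
  obtain ⟨u, hu, huT⟩ := exists_rep 𝒞 E₀ x (t ∪ t')
  rw [Finset.disjoint_union_right] at huT
  have h1 := abs_le.mp (hC x z s u t hs hu ht hst huT.1)
  have h2 := abs_le.mp (hC z x t t' u ht ht' hu huT.1.symm huT.2.symm)
  have h3 := abs_le.mp (hC x z u s' t' hu hs' ht' huT.2 hst')
  rw [bet_comm E₀ 𝒢.A (dvs t), bet_comm E₀ 𝒢.A (dvs t')] at h2
  rw [abs_le]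
  constructor <;> linarith [h1.1, h1.2, h2.1, h2.2, h3.1, h3.2]

theorem exists_pair (𝒞 : Cls 𝒢 X) (E₀ : Emb K F) (x z : X) :
    ∃ st : Finset (Place K F) × Finset (Place K F), Rep 𝒞 E₀ x st.1 ∧ Rep 𝒞 E₀ z st.2 ∧
      Disjoint st.1 st.2 := by
  obtain ⟨t, ht, -⟩ := exists_rep 𝒞 E₀ z ∅
  obtain ⟨s, hs, hst⟩ := exists_rep 𝒞 E₀ x t
  exact ⟨⟨s, t⟩, hs, ht, hst⟩

/-- the pairing -/
def BB (𝒞 : Cls 𝒢 X) (E₀ : Emb K F) (x z : X) : ℝ :=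
  bet E₀ 𝒢.A (dvs (exists_pair 𝒞 E₀ x z).choose.1) (dvs (exists_pair 𝒞 E₀ x z).choose.2)

theorem exists_BB (h : Inp 𝒢) (hB : Base 𝒢 E₀) (𝒞 : Cls 𝒢 X) : ∃ C : ℝ, 0 ≤ C ∧
    ∀ (x z : X) (s t : Finset (Place K F)), Rep 𝒞 E₀ x s → Rep 𝒞 E₀ z t → Disjoint s t →
      |BB 𝒞 E₀ x z - bet E₀ 𝒢.A (dvs s) (dvs t)| ≤ C := by
  obtain ⟨C, hC0, hC⟩ := exists_wd h hB 𝒞
  refine ⟨C, hC0, fun x z s t hs ht hst => ?_⟩
  have h1 := (exists_pair 𝒞 E₀ x z).choose_spec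
  exact hC x z _ s _ t h1.1 hs h1.2.1 ht h1.2.2 hst

theorem exists_BB_comm (h : Inp 𝒢) (hB : Base 𝒢 E₀) (𝒞 : Cls 𝒢 X) : ∃ C : ℝ,
    ∀ x z : X, |BB 𝒞 E₀ x z - BB 𝒞 E₀ z x| ≤ C := by
  obtain ⟨C, hC0, hC⟩ := exists_BB h hB 𝒞
  refine ⟨2 * C, fun x z => ?_⟩
  obtain ⟨⟨s, t⟩, hs, ht, hst⟩ := exists_pair 𝒞 E₀ x z
  have h1 := abs_le.mp (hC x z s t hs ht hst)
  have h2 := abs_le.mp (hC z x t s ht hs hst.symm)
  rw [bet_comm] at h2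
  rw [abs_le]
  constructor <;> linarith [h1.1, h1.2, h2.1, h2.2]

theorem exists_BB_add (h : Inp 𝒢) (hB : Base 𝒢 E₀) (𝒞 : Cls 𝒢 X) : ∃ C : ℝ,
    ∀ x y z : X, |BB 𝒞 E₀ (x + y) z - BB 𝒞 E₀ x z - BB 𝒞 E₀ y z| ≤ C := by
  classical
  obtain ⟨C, hC0, hC⟩ := exists_BB h hB 𝒞
  obtain ⟨C₂, h₂⟩ := exists_B4 h hB (k := 2 * kk 𝒢) (by unfold kk; omega) (kk 𝒢 * E₀.m)
  obtain ⟨C₃, h₃⟩ := exists_B4 h hB (k := 3 * kk 𝒢) (by unfold kk; omega) (kk 𝒢 * E₀.m)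
  refine ⟨3 * C + C₂ + C₃, fun x y z => ?_⟩
  obtain ⟨t, ht, -⟩ := exists_rep 𝒞 E₀ z ∅
  obtain ⟨s, hs, hsT⟩ := exists_rep 𝒞 E₀ x t
  obtain ⟨s', hs', hsT'⟩ := exists_rep 𝒞 E₀ y (t ∪ s)
  obtain ⟨w, hw, hwT⟩ := exists_rep 𝒞 E₀ (x + y) t
  obtain ⟨u, hu, huT⟩ := exists_rep 𝒞 E₀ (-(x + y)) (t ∪ s ∪ s' ∪ w)
  simp only [Finset.disjoint_union_right] at hsT' huT
  obtain ⟨⟨⟨hut, hus⟩, hus'⟩, huw⟩ := huT
  have hp2 := hw.prin2 hu (add_neg_cancel (x + y))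
  rw [← dvs_union huw.symm] at hp2
  have e2 := h₂ (w ∪ u) t (hw.ss.union hu.ss) ht.ss hp2
    (Finset.disjoint_union_left.mpr ⟨hwT, hut⟩) ht.card
  rw [dvs_union huw.symm, bet_add_left] at e2
  have hp3 := hs.prin3 hs' hu (add_neg_cancel (x + y))
  have hss' : Disjoint s s' := hsT'.2.symm
  have hssu : Disjoint (s ∪ s') u := Finset.disjoint_union_left.mpr ⟨hus.symm, hus'.symm⟩
  rw [← dvs_union hss', ← dvs_union hssu] at hp3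
  have e3 := h₃ (s ∪ s' ∪ u) t ((hs.ss.union hs'.ss).union hu.ss) ht.ss hp3
    (Finset.disjoint_union_left.mpr ⟨Finset.disjoint_union_left.mpr ⟨hsT, hsT'.1⟩, hut⟩) ht.card
  rw [dvs_union hssu, dvs_union hss', bet_add_left, bet_add_left] at e3
  have a1 := abs_le.mp (hC (x + y) z w t hw ht hwT)
  have a2 := abs_le.mp (hC x z s t hs ht hsT)
  have a3 := abs_le.mp (hC y z s' t hs' ht hsT'.1)
  have a4 := abs_le.mp e2
  have a5 := abs_le.mp e3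
  rw [abs_le]
  constructor <;> linarith [a1.1, a1.2, a2.1, a2.2, a3.1, a3.2, a4.1, a4.2, a5.1, a5.2]

/-- abstract parallelogram law -/
theorem parallelogram_of {B : X → X → ℝ} {C₁ C₂ : ℝ} (h₁ : ∀ x y, |B x y - B y x| ≤ C₁)
    (h₂ : ∀ x y z, |B (x + y) z - B x z - B y z| ≤ C₂) :
    ∃ C : ℝ, ∀ x y, |B (x + y) (-(x + y)) + B (x - y) (-(x - y)) -
      2 * (B x (-x) + B y (-y))| ≤ C := by
  -- additivity on the right
  have h₂' : ∀ x y z, |B z (x + y) - B z x - B z y| ≤ C₂ + 3 * C₁ := by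
    intro x y z
    have a := abs_le.mp (h₂ x y z)
    have b := abs_le.mp (h₁ (x + y) z)
    have c := abs_le.mp (h₁ x z)
    have d := abs_le.mp (h₁ y z)
    rw [abs_le]
    constructor <;> linarith [a.1, a.2, b.1, b.2, c.1, c.2, d.1, d.2]
  have h0 : ∀ z, |B 0 z| ≤ C₂ := by
    intro z
    have a := h₂ 0 0 z
    rw [add_zero, sub_self, zero_sub, abs_neg] at a
    exact a
  have hneg : ∀ x z, |B (-x) z + B x z| ≤ 2 * C₂ := by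
    intro x z
    have a := abs_le.mp (h₂ (-x) x z)
    rw [neg_add_cancel] at a
    have b := abs_le.mp (h0 z)
    rw [abs_le]
    constructor <;> linarith [a.1, a.2, b.1, b.2]
  refine ⟨100 * (|C₁| + |C₂|), fun x y => ?_⟩
  have n1 := abs_nonneg C₁
  have n2 := abs_nonneg C₂
  have m1 := le_abs_self C₁
  have m2 := le_abs_self C₂
  have e1 : -(x + y) = -x + -y := by abel
  have e2 : -(x - y) = -x + y := by abel
  have e3 : x - y = x + -y := by abel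
  -- B (x+y) (-x-y)
  have a1 := abs_le.mp (h₂ x y (-(x + y)))
  have a2 := abs_le.mp (h₂' (-x) (-y) x)
  have a3 := abs_le.mp (h₂' (-x) (-y) y)
  rw [← e1] at a2 a3
  -- B (x-y) (-x+y)
  have b1 := abs_le.mp (h₂ x (-y) (-(x - y)))
  rw [← e3] at b1
  have b2 := abs_le.mp (h₂' (-x) y x)
  have b3 := abs_le.mp (h₂' (-x) y (-y))
  rw [← e2] at b2 b3
  -- cross terms
  have c1 := abs_le.mp (hneg y (-x))
  have c2 := abs_le.mp (h₁ x y)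
  have c3 := abs_le.mp (h₁ x (-y))
  have c4 := abs_le.mp (hneg y x)
  have c5 := abs_le.mp (h₁ y (-y))
  rw [abs_le]
  constructor <;> linarith [a1.1, a1.2, a2.1, a2.2, a3.1, a3.2, b1.1, b1.2, b2.1, b2.2, b3.1,
    b3.2, c1.1, c1.2, c2.1, c2.2, c3.1, c3.2, c4.1, c4.2, c5.1, c5.2]

theorem hD_eq (E : Emb K F) {ι : Type*} (A : AVFam K ι) {R : Divisor K F} (hR : 0 ≤ R) :
    hD E A R = hgt E A R := by
  classical
  have h1 : hD E A R = LG (fun v => ∏ P ∈ R.support.erase E.inf, E.nx A v P ^ (R P).toNat) := by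
    unfold hD
    congr!
  rw [h1, LG_prod _ fun P _ => (ap_nx E A P).pow _]
  have h2 : ∀ P ∈ R.support.erase E.inf, LG (fun v => E.nx A v P ^ (R P).toNat) =
      (R P : ℝ) * ht E A P := by
    intro P _
    rw [LG_pow]
    unfold ht
    congr 1
    have := Int.toNat_of_nonneg (hR P)
    exact_mod_cast this
  rw [Finset.sum_congr rfl h2]
  unfold hgt
  rw [Finsupp.sum]
  by_cases hi : E.inf ∈ R.support
  · rw [← Finset.add_sum_erase _ _ hi, ht_inf]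
    simp
  · rw [Finset.erase_eq_of_notMem hi]

/-- **the height on the Jacobian** -/
theorem exists_height (h : Inp 𝒢) (hB : Base 𝒢 E₀) (𝒞 : Cls 𝒢 X) :
    ∃ (H : X → ℝ) (C : ℝ), (∀ x, 0 ≤ H x) ∧
      (∀ x y, |H (x + y) + H (x - y) - 2 * (H x + H y)| ≤ C) ∧
      ∀ b : ℝ, {x | H x ≤ b}.Finite := by
  classical
  obtain ⟨C₁, h₁⟩ := exists_BB_comm h hB 𝒞
  obtain ⟨C₂, h₂⟩ := exists_BB_add h hB 𝒞
  obtain ⟨C₃, h₃⟩ := parallelogram_of h₁ h₂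
  obtain ⟨C₄, hC₄, h₄⟩ := exists_BB h hB 𝒞
  obtain ⟨C₅, h₅⟩ := exists_B1 h hB (k := 2 * kk 𝒢) (by unfold kk; omega)
  obtain ⟨C₆, h₆⟩ := exists_sig_lb h hB (kk 𝒢 * E₀.m)
  obtain ⟨k, κ, C₇, hk, hκ, h₇⟩ := exists_A h hB (kk 𝒢 * E₀.m)
  set Q : X → ℝ := fun x => BB 𝒞 E₀ x (-x) with hQ
  -- comparison with `σ`
  have key : ∀ x, ∃ s t, Rep 𝒞 E₀ x s ∧ Rep 𝒞 E₀ (-x) t ∧
      |Q x - (sig E₀ 𝒢.A (dvs s) + sig E₀ 𝒢.A (dvs t))| ≤ C₄ + C₅ := by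
    intro x
    obtain ⟨⟨s, t⟩, hs, ht, hst⟩ := exists_pair 𝒞 E₀ x (-x)
    refine ⟨s, t, hs, ht, ?_⟩
    have h1 := abs_le.mp (h₄ x (-x) s t hs ht hst)
    have hp := hs.prin2 ht (add_neg_cancel x)
    rw [← dvs_union hst] at hp
    have h2 := abs_le.mp (h₅ (s ∪ t) (hs.ss.union ht.ss) hp)
    rw [dvs_union hst, sig_add] at h2
    rw [abs_le]
    constructor <;> linarith [h1.1, h1.2, h2.1, h2.2]
  set c₀ : ℝ := 2 * C₆ + C₄ + C₅ with hc₀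
  have hlb : ∀ x, 0 ≤ Q x + c₀ := by
    intro x
    obtain ⟨s, t, hs, ht, hst⟩ := key x
    have h1 := abs_le.mp hst
    have h2 := h₆ s hs.ss hs.card
    have h3 := h₆ t ht.ss ht.card
    linarith [h1.1, h1.2]
  refine ⟨fun x => Q x + c₀, C₃ + 2 * |c₀|, hlb, fun x y => ?_, fun b => ?_⟩
  · have h1 := abs_le.mp (h₃ x y)
    have h2 := le_abs_self c₀
    have h3 := neg_abs_le c₀
    simp only [hQ]
    rw [abs_le]
    constructor <;> linarith [h1.1, h1.2]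
  · -- Northcott
    have hR : ∀ x : X, Q x + c₀ ≤ b → ∃ R : Divisor K F, 0 ≤ R ∧ 𝒢.FixD R ∧
        Divisor.degree R = ((k * E₀.m : ℕ) : ℤ) - ((kk 𝒢 * E₀.m : ℕ) : ℤ) ∧
        hD E₀ 𝒢.A R ≤ κ * (b - c₀ + C₄ + C₅ + C₆) + C₇ ∧
        Lq (R - Finsupp.single 𝒢.inf (((k * E₀.m : ℕ) : ℤ) - ((kk 𝒢 * E₀.m : ℕ) : ℤ))) (𝒞.δ x) := by
      intro x hx
      obtain ⟨s, t, hs, ht, hst⟩ := key x
      have h1 := abs_le.mp hst
      have h2 := h₆ s hs.ss hs.card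
      obtain ⟨R, hR0, hRf, hRp, hRh⟩ := h₇ t ht.ss ht.card
      refine ⟨R, hR0, hRf, ?_, ?_, ?_⟩
      · have h3 := hRp.degree
        rw [map_add, degree_dvs, ht.card] at h3
        linarith
      · rw [hD_eq E₀ 𝒢.A hR0]
        refine hRh.trans ?_
        rw [add_le_add_iff_right]
        refine mul_le_mul_of_nonneg_left ?_ hκ.le
        linarith [h1.1, h1.2]
      · rw [prin_iff] at hRp
        -- k m₀ ∞ ~ t + R, δ(-x) + d₀ ∞ ~ t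
        have h3 := hRp.symm.sub ht.eq.symm
        have e1 : dvs t + R - dvs t = R := by abel
        rw [e1] at h3
        have h4 := h3.sub (Lq.refl
          (Finsupp.single 𝒢.inf (((k * E₀.m : ℕ) : ℤ) - ((kk 𝒢 * E₀.m : ℕ) : ℤ))))
        have e2 : Finsupp.single 𝒢.inf ((k * E₀.m : ℕ) : ℤ) - (𝒞.δ (-x) +
            Finsupp.single 𝒢.inf ((kk 𝒢 * E₀.m : ℕ) : ℤ)) -
            Finsupp.single 𝒢.inf (((k * E₀.m : ℕ) : ℤ) - ((kk 𝒢 * E₀.m : ℕ) : ℤ)) =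
            (0 : Divisor K F) - 𝒞.δ (-x) := by
          rw [Finsupp.single_sub]
          abel
        rw [e2] at h4
        refine h4.trans ?_
        have h5 := 𝒞.add x (-x)
        rw [add_neg_cancel] at h5
        have h6 := (𝒞.zero.symm.trans h5).sub (Lq.refl (𝒞.δ (-x)))
        rw [add_sub_cancel_right] at h6
        exact h6
    have hfin := h.north E₀ hB.good (((k * E₀.m : ℕ) : ℤ) - ((kk 𝒢 * E₀.m : ℕ) : ℤ))
      (κ * (b - c₀ + C₄ + C₅ + C₆) + C₇)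
    choose! R hR using hR
    refine Set.Finite.of_injOn (f := R) (fun x hx => ?_) (fun x hx y hy hxy => ?_) hfin
    · obtain ⟨r1, r2, r3, r4, -⟩ := hR x hx
      exact ⟨r1, r2, r3, r4⟩
    · obtain ⟨-, -, -, -, r5⟩ := hR x hx
      obtain ⟨-, -, -, -, r5'⟩ := hR y hy
      rw [← hxy] at r5'
      exact 𝒞.inj x y (r5.symm.trans r5')

end Main

end Fermat.Agent.MWG
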