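import Fermat.Agent.MWG.Embs
import Fermat.Agent.MWS.EmbB
import Fermat.Agent.MWH.LocLB
import Fermat.Agent.PicFlat.Gal

/-!
# S17 (H), global part: heights, the core identity, (T2)
-/

set_option autoImplicit false
set_option linter.unusedSectionVars false
set_option linter.style.haveILetI false

noncomputable section

namespace Fermat.Agent.MWG

open AlgebraicCurve Fermat.Agent.Curves Fermat.Agent.PicFlat Fermat.Agent.MWH SemilinearAut
  Fermat.Agent.GoodRed
open scoped Pointwise IntermediateField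

section Loc

variable {K F ι : Type*} [Field K] [IsAlgClosed K] [Field F] [Algebra K F] [IsFunctionField K F]
  (E : Emb K F) (A : AVFam K ι)

theorem minor_ne {P Q : Place K F} (h : P ≠ Q) : ∃ ij : Fin (E.r + 1) × Fin (E.r + 1),
    E.x P ij.1 * E.x Q ij.2 - E.x P ij.2 * E.x Q ij.1 ≠ 0 := by
  classical
  by_contra hcon
  push Not at hcon
  set D : Divisor K F := Finsupp.single E.inf (E.m : ℤ) - Finsupp.single P 1 with hD
  have hdeg : Divisor.degree D = E.m - 1 := by
    rw [hD, map_sub, degree_single_one, degree_single_one]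
  obtain ⟨f, hf, hf0, hfQ⟩ := E.rr.bpf (D := D) (by have := E.large; omega) Q
  have hfm : f ∈ riemannRochSpace (Finsupp.single E.inf (E.m : ℤ)) := by
    refine riemannRochSpace_mono ?_ hf
    rw [hD]
    refine sub_le_self _ ?_
    rw [Finsupp.single_nonneg]; norm_num
  obtain ⟨c, hc⟩ := E.exists_G hfm
  have hc0 : c ≠ 0 := by
    rintro rfl
    apply hf0
    rw [← hc, Emb.G]
    simp
  have hP : E.dot c P = 0 := by
    rw [Emb.dot_eq_zero_iff hc0, Emb.dv_apply, hc]
    have := (mem_iff_of_ne hf0).1 hf P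
    rw [hD, Finsupp.sub_apply, Finsupp.single_eq_same] at this
    omega
  have hQ : E.dot c Q ≠ 0 := by
    rw [Emb.dot_ne_zero_iff hc0, Emb.dv_apply, hc, hfQ, hD, Finsupp.sub_apply,
      Finsupp.single_eq_of_ne (Ne.symm h)]
    ring
  apply E.x_ne_zero P
  funext j
  have h1 : E.dot c P * E.x Q j = E.x P j * E.dot c Q := by
    rw [Emb.dot, Emb.dot, Finset.sum_mul, Finset.mul_sum]
    refine Finset.sum_congr rfl fun i _ => ?_
    have h2 := hcon (i, j)
    linear_combination c i * h2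
  rw [hP, zero_mul] at h1
  exact (mul_eq_zero.mp h1.symm).resolve_right hQ

theorem ap_nx (P : Place K F) : AP (fun v => E.nx A v P) := ap_nrm A (E.x_ne_zero P)

theorem ap_dl {P Q : Place K F} (h : P ≠ Q) : AP (fun v => E.dl A v P Q) := by
  obtain ⟨ij, hij⟩ := minor_ne E h
  exact (ap_nrm A (c := fun ij : Fin (E.r + 1) × Fin (E.r + 1) =>
    E.x P ij.1 * E.x Q ij.2 - E.x P ij.2 * E.x Q ij.1) (Function.ne_iff.2 ⟨ij, hij⟩)).div
    ((ap_nx E A P).mul (ap_nx E A Q))

theorem ap_dD {P : Place K F} {D : Divisor K F} (h : D P = 0) : AP (fun v => E.dD A v P D) := by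
  classical
  unfold Emb.dD
  simp only [Finsupp.prod]
  refine AP.prod _ fun Q hQ => AP.pow (ap_dl E A ?_) _
  rintro rfl
  exact (Finsupp.mem_support_iff.mp hQ) h

/-- the height of a place -/
def ht (P : Place K F) : ℝ := LG (fun v => E.nx A v P)

/-- the mutual height of two places -/
def lm (P Q : Place K F) : ℝ := -LG (fun v => E.dl A v P Q)

/-- the height of a divisor -/
def hgt (R : Divisor K F) : ℝ := R.sum fun P n => (n : ℝ) * ht E A P

/-- the mutual height of two divisors -/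
def lam (R D : Divisor K F) : ℝ := R.sum fun P n => D.sum fun Q m => (n : ℝ) * m * lm E A P Q

theorem lm_comm (P Q : Place K F) : lm E A P Q = lm E A Q P := by
  unfold lm
  simp only [MWS.EB.dl_comm E A _ P Q]

theorem ht_nonneg (P : Place K F) : 0 ≤ ht E A P := LG_nonneg fun v => MWS.EB.one_le_nx' E A v P

theorem ht_inf : ht E A E.inf = 0 := by
  unfold ht
  simp only [MWS.EB.nx_inf]
  exact LG_one

theorem hgt_add (R R' : Divisor K F) : hgt E A (R + R') = hgt E A R + hgt E A R' := by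
  unfold hgt
  refine Finsupp.sum_add_index' (fun P => by simp) fun P n n' => ?_
  push_cast
  ring

theorem hgt_single (P : Place K F) (n : ℤ) : hgt E A (Finsupp.single P n) = n * ht E A P := by
  unfold hgt
  exact Finsupp.sum_single_index (by simp)

theorem hgt_zero : hgt E A 0 = 0 := by simp [hgt]

theorem hgt_nonneg {R : Divisor K F} (hR : 0 ≤ R) : 0 ≤ hgt E A R := by
  unfold hgt
  refine Finset.sum_nonneg fun P _ => mul_nonneg ?_ (ht_nonneg E A P)
  exact_mod_cast hR P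

theorem lam_add_left (R R' D : Divisor K F) : lam E A (R + R') D = lam E A R D + lam E A R' D := by
  unfold lam
  refine Finsupp.sum_add_index' (fun P => by simp) fun P n n' => ?_
  rw [← Finsupp.sum_add]
  refine Finsupp.sum_congr fun Q _ => ?_
  push_cast
  ring

theorem lam_comm (R D : Divisor K F) : lam E A R D = lam E A D R := by
  unfold lam
  rw [Finsupp.sum_comm]
  refine Finsupp.sum_congr fun Q _ => Finsupp.sum_congr fun P _ => ?_
  rw [lm_comm]
  ring

theorem lam_add_right (R D D' : Divisor K F) : lam E A R (D + D') = lam E A R D + lam E A R D' := by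
  rw [lam_comm, lam_add_left, lam_comm _ _ D, lam_comm _ _ D']

theorem lam_zero_left (D : Divisor K F) : lam E A 0 D = 0 := by simp [lam]

theorem lam_zero_right (D : Divisor K F) : lam E A D 0 = 0 := by simp [lam]

theorem lam_single_left (P : Place K F) (n : ℤ) (D : Divisor K F) :
    lam E A (Finsupp.single P n) D = n * D.sum fun Q m => (m : ℝ) * lm E A P Q := by
  unfold lam
  rw [Finsupp.sum_single_index (by simp), Finsupp.sum, Finsupp.sum, Finset.mul_sum]
  exact Finset.sum_congr rfl fun Q _ => by ring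

/-- `dD` and `lam` -/
theorem LG_dD {P : Place K F} {D : Divisor K F} (hD : 0 ≤ D) (h : D P = 0) :
    LG (fun v => E.dD A v P D) = -D.sum fun Q m => (m : ℝ) * lm E A P Q := by
  classical
  unfold Emb.dD
  simp only [Finsupp.prod]
  have hne : ∀ Q ∈ D.support, P ≠ Q := by
    rintro Q hQ rfl
    exact (Finsupp.mem_support_iff.mp hQ) h
  rw [LG_prod _ fun Q hQ => AP.pow (ap_dl E A (hne Q hQ)) _, Finsupp.sum, ← Finset.sum_neg_distrib]
  refine Finset.sum_congr rfl fun Q _ => ?_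
  rw [LG_pow]
  unfold lm
  have h1 : (((D Q).toNat : ℕ) : ℝ) = ((D Q : ℤ) : ℝ) := by
    have := Int.toNat_of_nonneg (hD Q)
    exact_mod_cast this
  rw [h1]
  ring

/-- **pointwise core identity** -/
theorem exists_core (hUB : LocUB E A) (hLB : LocLB E A) : ∃ C : ℝ, 0 ≤ C ∧
    ∀ c : Fin (E.r + 1) → K, c ≠ 0 → ∀ P, E.dv c P = 0 →
      |LG (fun v => A.nv v (E.dot c P)) -
        (LG (fun v => sup A v c) + ht E A P - (E.dv c).sum fun Q m => (m : ℝ) * lm E A P Q)| ≤
        C := by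
  obtain ⟨C₁, hC₁, h₁⟩ := hUB
  obtain ⟨C₂, hC₂, h₂⟩ := hLB
  have n₁ : 0 ≤ LG C₁ := LG_nonneg hC₁.one_le
  have n₂ : 0 ≤ LG C₂ := LG_nonneg hC₂.one_le
  refine ⟨LG C₁ + LG C₂, add_nonneg n₁ n₂, fun c hc P hP => ?_⟩
  have hdot : E.dot c P ≠ 0 := (Emb.dot_ne_zero_iff hc P).2 hP
  have a0 : AP (fun v => A.nv v (E.dot c P)) := ap_nv A hdot
  have a1 : AP (fun v => sup A v c) := ap_nrm A hc
  have a2 := ap_nx E A P
  have a3 : AP (fun v => E.dD A v P (E.dv c)) := ap_dD E A hP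
  have hdv : 0 ≤ E.dv c := fun Q => Emb.dv_nonneg hc Q
  have e := LG_dD E A hdv hP
  have e1 : LG (fun v => sup A v c * E.nx A v P * E.dD A v P (E.dv c)) =
      LG (fun v => sup A v c) + ht E A P - (E.dv c).sum fun Q m => (m : ℝ) * lm E A P Q := by
    rw [LG_mul (a1.mul a2) a3, LG_mul a1 a2, e]
    unfold ht
    ring
  rw [← e1]
  have u1 : LG (fun v => A.nv v (E.dot c P)) ≤
      LG C₁ + LG (fun v => sup A v c * E.nx A v P * E.dD A v P (E.dv c)) := by
    rw [← LG_mul (ap_of_mc hC₁) ((a1.mul a2).mul a3)]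
    exact LG_mono a0 ((ap_of_mc hC₁).mul ((a1.mul a2).mul a3)) fun v => h₁ v c hc P
  have u2 : LG (fun v => sup A v c * E.nx A v P * E.dD A v P (E.dv c)) ≤
      LG C₂ + LG (fun v => A.nv v (E.dot c P)) := by
    rw [← LG_mul (ap_of_mc hC₂) a0]
    exact LG_mono ((a1.mul a2).mul a3) ((ap_of_mc hC₂).mul a0) fun v => h₂ v c hc P
  rw [abs_le]
  constructor <;> linarith

end Loc

section Glo

variable {K F : Type*} [Field K] [IsAlgClosed K] [CharZero K] [Field F] [Algebra K F]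
  [IsFunctionField K F] {𝒢 : Glob K F} {E : Emb K F}

theorem baseAut_rat (σ : SemilinearAut K F) (q : ℚ) : baseAut σ (q : K) = q := map_ratCast _ _

theorem x_smul (hE : 𝒢.Good E) {σ : SemilinearAut K F} (hσ : σ ∈ 𝒢.G) (P : Place K F)
    (i : Fin (E.r + 1)) : E.x (σ • P) i = baseAut σ (E.x P i) := by
  classical
  have hinf : σ • E.inf = E.inf := by rw [hE.inf]; exact 𝒢.fixinf σ hσ
  by_cases hP : P = E.inf
  · subst hP
    rw [hinf, MWS.EB.x_inf]
    split_ifs <;> simp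
  · have hP' : σ • P ≠ E.inf := by
      intro h
      apply hP
      have : σ • P = σ • E.inf := by rw [h, hinf]
      exact smul_left_cancel σ this
    rw [MWS.EB.x_of_ne E hP', MWS.EB.x_of_ne E hP]
    have := value_smul_act σ P (MWS.EB.f_mem E hP i)
    rwa [hE.fix i σ hσ] at this

theorem dot_smul_gal (hE : 𝒢.Good E) {σ : SemilinearAut K F} (hσ : σ ∈ 𝒢.G)
    (q : Fin (E.r + 1) → ℚ) (P : Place K F) :
    E.dot (fun i => (q i : K)) (σ • P) = baseAut σ (E.dot (fun i => (q i : K)) P) := by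
  rw [Emb.dot, Emb.dot, map_sum]
  refine Finset.sum_congr rfl fun i _ => ?_
  rw [map_mul, baseAut_rat, x_smul hE hσ]

theorem ratvec_ne {n : ℕ} {q : Fin n → ℚ} (hq : q ≠ 0) : (fun i => (q i : K)) ≠ 0 := by
  obtain ⟨i, hi⟩ := Function.ne_iff.1 hq
  exact Function.ne_iff.2 ⟨i, by simpa using hi⟩

/-- product formula for the values of a rational section at the points of a fixed divisor -/
theorem sum_dot (hE : 𝒢.Good E) {q : Fin (E.r + 1) → ℚ} (hq : q ≠ 0)
    {R : Divisor K F} (hR0 : 0 ≤ R) (hR : 𝒢.FixD R)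
    (hd : ∀ P, R P ≠ 0 → E.dv (fun i => (q i : K)) P = 0) :
    (R.sum fun P n => (n : ℝ) * LG (fun v => 𝒢.A.nv v (E.dot (fun i => (q i : K)) P))) = 0 := by
  classical
  set d : Place K F → K := fun P => E.dot (fun i => (q i : K)) P with hd'
  have hdne : ∀ P ∈ R.support, d P ≠ 0 := fun P hP =>
    (Emb.dot_ne_zero_iff (ratvec_ne hq) P).2 (hd P (Finsupp.mem_support_iff.mp hP))
  set a : K := ∏ P ∈ R.support, d P ^ (R P).toNat with ha
  have ha0 : a ≠ 0 := Finset.prod_ne_zero_iff.mpr fun P hP => pow_ne_zero _ (hdne P hP)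
  have hafix : ∀ σ ∈ 𝒢.G, baseAut σ a = a := by
    intro σ hσ
    rw [ha, map_prod]
    have hRσ : ∀ P, R (σ • P) = R P := by
      intro P
      conv_lhs => rw [← hR σ hσ]
      rw [SemilinearAut.divisor_smul_apply, inv_smul_smul]
    refine Finset.prod_equiv (MulAction.toPerm σ) (fun P => ?_) fun P hP => ?_
    · rw [MulAction.toPerm_apply, Finsupp.mem_support_iff, Finsupp.mem_support_iff, hRσ]
    · rw [MulAction.toPerm_apply, map_pow, hRσ]
      congr 1
      exact (dot_smul_gal hE hσ q P).symm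
  obtain ⟨t, ht⟩ := 𝒢.fixQ a hafix
  have ht0 : t ≠ 0 := by
    rintro rfl
    apply ha0
    rw [← ht]; simp
  have h1 := 𝒢.pf ht0
  rw [ht] at h1
  rw [← h1]
  have e : ∀ v, 𝒢.A.nv v a = ∏ P ∈ R.support, 𝒢.A.nv v (d P) ^ (R P).toNat := by
    intro v
    rw [ha, map_prod]
    exact Finset.prod_congr rfl fun P _ => map_pow _ _ _
  simp only [e]
  rw [LG_prod _ fun P hP => (ap_nv 𝒢.A (hdne P hP)).pow _, Finsupp.sum]
  refine Finset.sum_congr rfl fun P _ => ?_
  rw [LG_pow]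
  congr 1
  have := Int.toNat_of_nonneg (hR0 P)
  exact_mod_cast this.symm

/-- **core identity** -/
theorem exists_coreD (hE : 𝒢.Good E) (hUB : LocUB E 𝒢.A) (hLB : LocLB E 𝒢.A) :
    ∃ C : ℝ, 0 ≤ C ∧ ∀ q : Fin (E.r + 1) → ℚ, q ≠ 0 → ∀ R : Divisor K F, 0 ≤ R → 𝒢.FixD R →
      (∀ P, R P ≠ 0 → E.dv (fun i => (q i : K)) P = 0) →
      |(Divisor.degree R : ℝ) * LG (fun v => sup 𝒢.A v (fun i => (q i : K))) + hgt E 𝒢.A R -
        lam E 𝒢.A R (E.dv fun i => (q i : K))| ≤ C * Divisor.degree R := by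
  classical
  obtain ⟨C, hC0, hC⟩ := exists_core E 𝒢.A hUB hLB
  refine ⟨C, hC0, fun q hq R hR0 hR hd => ?_⟩
  set c : Fin (E.r + 1) → K := fun i => (q i : K) with hc
  have hc0 : c ≠ 0 := ratvec_ne hq
  have h1 := sum_dot hE hq hR0 hR hd
  have hdeg : (Divisor.degree R : ℝ) = ∑ P ∈ R.support, (R P : ℝ) := by
    rw [degree_eq_sum, Finsupp.sum]
    push_cast
    rfl
  have e : (Divisor.degree R : ℝ) * LG (fun v => sup 𝒢.A v c) + hgt E 𝒢.A R -
        lam E 𝒢.A R (E.dv c) = ∑ P ∈ R.support, (R P : ℝ) *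
          (-(LG (fun v => 𝒢.A.nv v (E.dot c P)) - (LG (fun v => sup 𝒢.A v c) + ht E 𝒢.A P -
            (E.dv c).sum fun Q m => (m : ℝ) * lm E 𝒢.A P Q))) := by
    rw [Finsupp.sum] at h1
    have e1 : ∀ P ∈ R.support, (R P : ℝ) *
          (-(LG (fun v => 𝒢.A.nv v (E.dot c P)) - (LG (fun v => sup 𝒢.A v c) + ht E 𝒢.A P -
            (E.dv c).sum fun Q m => (m : ℝ) * lm E 𝒢.A P Q))) =
        ((R P : ℝ) * LG (fun v => sup 𝒢.A v c) + (R P : ℝ) * ht E 𝒢.A P -
          ((R P : ℝ) * (E.dv c).sum fun Q m => (m : ℝ) * lm E 𝒢.A P Q)) -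
          (R P : ℝ) * LG (fun v => 𝒢.A.nv v (E.dot c P)) := fun P _ => by ring
    rw [Finset.sum_congr rfl e1, Finset.sum_sub_distrib, h1, sub_zero, Finset.sum_sub_distrib,
      Finset.sum_add_distrib, ← Finset.sum_mul, ← hdeg]
    congr 1
    unfold lam
    rw [Finsupp.sum]
    refine Finset.sum_congr rfl fun P _ => ?_
    rw [Finsupp.sum, Finsupp.sum, Finset.mul_sum]
    exact Finset.sum_congr rfl fun Q _ => by ring
  rw [e]
  refine (Finset.abs_sum_le_sum_abs _ _).trans ?_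
  rw [hdeg, Finset.mul_sum]
  refine Finset.sum_le_sum fun P hP => ?_
  have hRP : (0 : ℝ) ≤ R P := by exact_mod_cast hR0 P
  rw [abs_mul, abs_neg, abs_of_nonneg hRP, mul_comm C]
  refine mul_le_mul_of_nonneg_left ?_ hRP
  exact hC c hc0 P (hd P (Finsupp.mem_support_iff.mp hP))

/-- functions with the same divisor are proportional -/
theorem exists_smul_of_div {f g : F} (hf : f ≠ 0) (hg : g ≠ 0)
    (h : divisorOf (k := K) f = divisorOf g) : ∃ a : K, a ≠ 0 ∧ f = a • g := by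
  have h1 : f / g ∈ riemannRochSpace (0 : Divisor K F) := by
    rw [mem_iff_of_ne (div_ne_zero hf hg)]
    intro P
    have h2 := DFunLike.congr_fun h P
    rw [divisorOf_apply, divisorOf_apply] at h2
    rw [ord_div P hf hg, h2]
    simp
  obtain ⟨a, ha⟩ := Submodule.mem_span_singleton.mp (riemannRochSpace_zero_le h1)
  have h3 : f = a • g := by
    rw [Algebra.smul_def, mul_one] at ha
    rw [Algebra.smul_def, ha, div_mul_cancel₀ _ hg]
  refine ⟨a, ?_, h3⟩
  rintro rfl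
  rw [zero_smul] at h3
  exact hf h3

/-- rational equations -/
theorem exists_ratvec (hE : 𝒢.Good E) {D : Divisor K F} (hD0 : 0 ≤ D) (hD : 𝒢.FixD D) {f : F}
    (hf0 : f ≠ 0) (hf : divisorOf f + Finsupp.single E.inf (E.m : ℤ) = D) :
    ∃ q : Fin (E.r + 1) → ℚ, q ≠ 0 ∧ E.dv (fun i => (q i : K)) = D := by
  classical
  have hmem : f ∈ riemannRochSpace (Finsupp.single E.inf (E.m : ℤ)) := by
    rw [mem_iff_div hf0, hf]
    exact hD0
  obtain ⟨c, hc⟩ := E.exists_G hmem
  have hc0 : c ≠ 0 := by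
    rintro rfl
    apply hf0
    rw [← hc, Emb.G]
    simp
  obtain ⟨i₀, hi₀⟩ := Function.ne_iff.1 hc0
  have hinf : ∀ σ ∈ 𝒢.G, σ • (Finsupp.single E.inf (E.m : ℤ) : Divisor K F) =
      Finsupp.single E.inf (E.m : ℤ) := fun σ hσ => by
    rw [SemilinearAut.smul_single, hE.inf, 𝒢.fixinf σ hσ]
  have hfixc : ∀ i, ∀ σ ∈ 𝒢.G, baseAut σ (c i / c i₀) = c i / c i₀ := by
    intro i σ hσ
    have hσf : σ • f ≠ 0 := by
      rw [smul_def]; exact (map_ne_zero_iff _ (RingEquiv.injective _)).mpr hf0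
    have h1 : divisorOf (k := K) (σ • f) = divisorOf f := by
      have h2 : divisorOf (k := K) f = D - Finsupp.single E.inf (E.m : ℤ) := by
        rw [← hf]; abel
      rw [← smul_divisorOf', h2, smul_sub, hD σ hσ, hinf σ hσ]
    obtain ⟨a, ha0, ha⟩ := exists_smul_of_div hσf hf0 h1
    have h3 : E.G (fun j => baseAut σ (c j)) = E.G (a • c) := by
      rw [E.G_smul, hc, ← ha, ← hc, Emb.G, Emb.G, Finset.smul_sum]
      refine Finset.sum_congr rfl fun j _ => ?_
      rw [smul_smul', hE.fix j σ hσ]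
    have h4 : (fun j => baseAut σ (c j)) = a • c := by
      by_contra h5
      have h6 := E.G_ne_zero (sub_ne_zero.mpr h5)
      rw [E.G_sub, h3, sub_self] at h6
      exact h6 rfl
    have h5 : ∀ j, baseAut σ (c j) = a * c j := fun j => congrFun h4 j
    rw [map_div₀, h5, h5]
    exact mul_div_mul_left _ _ ha0
  choose q hq using fun i => 𝒢.fixQ _ (hfixc i)
  refine ⟨q, ?_, ?_⟩
  · intro h0
    have h1 := hq i₀
    rw [h0, div_self hi₀] at h1
    simp at h1
  · have h1 : (fun i => (q i : K)) = (c i₀)⁻¹ • c := by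
      funext i
      rw [hq i, Pi.smul_apply, smul_eq_mul, div_eq_inv_mul]
    rw [← hf, Emb.dv, h1, E.G_smul, hc]
    congr 1
    ext P
    rw [divisorOf_apply, divisorOf_apply, Algebra.smul_def,
      P.ord_mul (by rw [Ne, map_eq_zero]; exact inv_ne_zero hi₀) hf0, ord_algebraMap, zero_add]

theorem dv_fix (hE : 𝒢.Good E) (q : Fin (E.r + 1) → ℚ) :
    𝒢.FixD (E.dv (fun i => (q i : K))) := by
  intro σ hσ
  have h1 : σ • E.G (fun i => (q i : K)) = E.G (fun i => (q i : K)) := by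
    rw [Emb.G, Finset.smul_sum]
    refine Finset.sum_congr rfl fun j _ => ?_
    rw [smul_smul', hE.fix j σ hσ, baseAut_rat]
  rw [Emb.dv, smul_add, smul_divisorOf', h1, SemilinearAut.smul_single, hE.inf, 𝒢.fixinf σ hσ]

/-- a rational hyperplane section avoiding a finite set -/
theorem exists_hyp (hE : 𝒢.Good E) (T : Finset (Place K F)) :
    ∃ q : Fin (E.r + 1) → ℚ, q ≠ 0 ∧ ∃ s : Finset (Place K F), 𝒢.Stable s ∧ Disjoint s T ∧
      E.dv (fun i => (q i : K)) = dvs s := by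
  have hI : 𝒢.FixD (Finsupp.single E.inf (E.m : ℤ)) := by
    rw [hE.inf]
    exact GD.FixD.single (𝒢 := 𝒢.toGD) 𝒢.fixinf _
  obtain ⟨f, hf0, hfix, s, hsT, hs⟩ := moving (𝒢 := 𝒢.toGD) E.rr hI
    (by rw [degree_single_one]; have := E.large; omega)
    (by rw [degree_single_one]; have := E.pos; omega) T
  have hD : 𝒢.FixD (dvs s) := by
    rw [← hs]
    exact GD.FixD.add (GD.Fix.div hfix) hI
  obtain ⟨q, hq, hqs⟩ := exists_ratvec hE (dvs_nonneg s) hD hf0 hs
  exact ⟨q, hq, s, stable_of_fixD hD, hsT, hqs⟩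

/-- **(T2)** -/
theorem exists_T2 (hE : 𝒢.Good E) (hUB : LocUB E 𝒢.A) (hLB : LocLB E 𝒢.A) :
    ∃ C : ℝ, ∀ q : Fin (E.r + 1) → ℚ, q ≠ 0 →
      |(E.m : ℝ) * LG (fun v => sup 𝒢.A v (fun i => (q i : K))) -
        hgt E 𝒢.A (E.dv fun i => (q i : K))| ≤ C := by
  classical
  obtain ⟨C, hC0, hC⟩ := exists_coreD hE hUB hLB
  set t : (Fin (E.r + 1) → ℚ) → ℝ := fun q => (E.m : ℝ) * LG (fun v => sup 𝒢.A v
    (fun i => (q i : K))) - hgt E 𝒢.A (E.dv fun i => (q i : K)) with ht
  have hdeg : ∀ q : Fin (E.r + 1) → ℚ, (Divisor.degree (E.dv fun i => (q i : K)) : ℝ) = E.m := by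
    intro q
    rw [E.dv_degree]
    simp
  have key : ∀ q q' : Fin (E.r + 1) → ℚ, q ≠ 0 → q' ≠ 0 →
      (∀ P, E.dv (fun i => (q i : K)) P ≠ 0 → E.dv (fun i => (q' i : K)) P = 0) →
      |t q - t q'| ≤ 2 * (C * E.m) := by
    intro q q' hq hq' hd
    have h1 := hC q' hq' (E.dv fun i => (q i : K)) (fun P => Emb.dv_nonneg (ratvec_ne hq) P)
      (dv_fix hE q) hd
    have h2 := hC q hq (E.dv fun i => (q' i : K)) (fun P => Emb.dv_nonneg (ratvec_ne hq') P)
      (dv_fix hE q') (fun P hP => by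
        by_contra h3
        exact hP (hd P h3))
    rw [hdeg] at h1 h2
    rw [lam_comm] at h2
    have h3 : t q - t q' = ((E.m : ℝ) * LG (fun v => sup 𝒢.A v (fun i => (q i : K))) +
        hgt E 𝒢.A (E.dv fun i => (q' i : K)) -
        lam E 𝒢.A (E.dv fun i => (q i : K)) (E.dv fun i => (q' i : K))) -
        ((E.m : ℝ) * LG (fun v => sup 𝒢.A v (fun i => (q' i : K))) +
        hgt E 𝒢.A (E.dv fun i => (q i : K)) -
        lam E 𝒢.A (E.dv fun i => (q i : K)) (E.dv fun i => (q' i : K))) := by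
      rw [ht]; ring
    rw [h3]
    refine (abs_sub _ _).trans ?_
    linarith
  obtain ⟨q₀, hq₀, -⟩ := exists_hyp hE ∅
  refine ⟨|t q₀| + 4 * (C * E.m), fun q hq => ?_⟩
  obtain ⟨q', hq', s, -, hsT, hs⟩ := exists_hyp hE
    ((E.dv fun i => (q i : K)).support ∪ (E.dv fun i => (q₀ i : K)).support)
  have hdis : ∀ P, (E.dv (fun i => (q i : K)) P ≠ 0 ∨ E.dv (fun i => (q₀ i : K)) P ≠ 0) →
      E.dv (fun i => (q' i : K)) P = 0 := by
    intro P hP
    rw [hs]
    refine dvs_of_notMem fun h => ?_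
    refine Finset.disjoint_left.mp hsT h ?_
    rw [Finset.mem_union, Finsupp.mem_support_iff, Finsupp.mem_support_iff]
    exact hP
  have h1 := key q q' hq hq' fun P hP => hdis P (Or.inl hP)
  have h2 := key q₀ q' hq₀ hq' fun P hP => hdis P (Or.inr hP)
  change |t q| ≤ _
  have h3 : t q = t q₀ + (t q - t q') - (t q₀ - t q') := by ring
  rw [abs_le] at h1 h2 ⊢
  have h4 := neg_abs_le (t q₀)
  have h5 := le_abs_self (t q₀)
  constructor <;> linarith [h1.1, h1.2, h2.1, h2.2]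

end Glo

end Fermat.Agent.MWG
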