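import Fermat.Agent.MWH.Defs
import Fermat.Agent.PicFlat.Unram
import Fermat.Prelude.Def_AlgebraicCurve_BaseChangeGalois

/-!
# S17 (H), global part: Galois descent and the moving lemma
-/

set_option autoImplicit false
set_option linter.unusedSectionVars false
set_option linter.style.haveILetI false

noncomputable section

namespace Fermat.Agent.MWG

open AlgebraicCurve Fermat.Agent.Curves Fermat.Agent.PicFlat SemilinearAut
open scoped Pointwise

/-- Galois data: a group of semilinear automorphisms of `F/K` with enough fixed functions -/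
structure GD (K F : Type*) [Field K] [Field F] [Algebra K F] where
  G : Subgroup (SemilinearAut K F)
  span : Submodule.span K {f : F | ∀ σ ∈ G, σ • f = f} = ⊤

variable {K F : Type*} [Field K] [Field F] [Algebra K F] (𝒢 : GD K F)

/-- fixed functions -/
def GD.Fix (f : F) : Prop := ∀ σ ∈ 𝒢.G, σ • f = f

/-- fixed constants -/
def GD.FixK (a : K) : Prop := ∀ σ ∈ 𝒢.G, baseAut σ a = a

/-- fixed divisors -/
def GD.FixD (D : Divisor K F) : Prop := ∀ σ ∈ 𝒢.G, σ • D = D

theorem smul_smul' (σ : SemilinearAut K F) (a : K) (f : F) : σ • (a • f) = (baseAut σ a) • (σ • f) := by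
  rw [Algebra.smul_def, smul_mul', SemilinearAut.smul_algebraMap, Algebra.smul_def]

theorem exists_fixed_basis : ∃ (I : Set F) (b : Module.Basis I K F), ∀ i, 𝒢.Fix (b i) := by
  have hs : ⊤ ≤ Submodule.span K {f : F | ∀ σ ∈ 𝒢.G, σ • f = f} := 𝒢.span.ge
  refine ⟨_, Module.Basis.ofSpan hs, fun i => ?_⟩
  have h1 := Module.Basis.ofSpan_subset hs
  exact h1 ⟨i, rfl⟩

section Descent

variable {𝒢} {I : Type*} (b : Module.Basis I K F) (hb : ∀ i, 𝒢.Fix (b i))

include hb in
theorem repr_smul {σ : SemilinearAut K F} (hσ : σ ∈ 𝒢.G) (v : F) (i : I) :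
    b.repr (σ • v) i = baseAut σ (b.repr v i) := by
  have h1 : σ • v = Finsupp.linearCombination K b ((b.repr v).mapRange (baseAut σ) (map_zero _)) := by
    conv_lhs => rw [← b.linearCombination_repr v, Finsupp.linearCombination_apply, Finsupp.sum]
    rw [Finset.smul_sum, Finsupp.linearCombination_apply, Finsupp.sum_mapRange_index
      (fun i => by rw [zero_smul]), Finsupp.sum]
    refine Finset.sum_congr rfl fun j _ => ?_
    rw [smul_smul', hb j σ hσ]
  rw [h1, b.repr_linearCombination, Finsupp.mapRange_apply]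

include hb in
/-- Claim A -/
theorem exists_fixed_le (V : Submodule K F) (hV : ∀ σ ∈ 𝒢.G, ∀ v ∈ V, σ • v ∈ V) :
    ∀ (n : ℕ) (v : F), v ∈ V → v ≠ 0 → (b.repr v).support.card ≤ n →
      ∃ u ∈ V, u ≠ 0 ∧ 𝒢.Fix u ∧ (b.repr u).support ⊆ (b.repr v).support := by
  classical
  intro n
  induction n with
  | zero =>
    intro v _ hv0 hn
    exfalso
    apply hv0
    have h1 : (b.repr v).support = ∅ := Finset.card_eq_zero.mp (Nat.le_zero.mp hn)
    exact b.repr.map_eq_zero_iff.mp (Finsupp.support_eq_empty.mp h1)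
  | succ n ih =>
    intro v hv hv0 hn
    have hne : (b.repr v).support.Nonempty := by
      rw [Finset.nonempty_iff_ne_empty]
      intro h
      exact hv0 (b.repr.map_eq_zero_iff.mp (Finsupp.support_eq_empty.mp h))
    obtain ⟨j, hj⟩ := hne
    have hj0 : b.repr v j ≠ 0 := Finsupp.mem_support_iff.mp hj
    set v' : F := (b.repr v j)⁻¹ • v with hv'
    have hv'V : v' ∈ V := V.smul_mem _ hv
    have hrep : b.repr v' = (b.repr v j)⁻¹ • b.repr v := by rw [hv', map_smul]
    have hsupp : (b.repr v').support = (b.repr v).support := by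
      rw [hrep, Finsupp.support_smul_eq (inv_ne_zero hj0)]
    have hj1 : b.repr v' j = 1 := by
      rw [hrep, Finsupp.smul_apply, smul_eq_mul, inv_mul_cancel₀ hj0]
    by_cases hfix : 𝒢.Fix v'
    · refine ⟨v', hv'V, ?_, hfix, hsupp.le⟩
      intro h0
      rw [h0, map_zero, Finsupp.zero_apply] at hj1
      exact zero_ne_one hj1
    · rw [GD.Fix] at hfix
      push Not at hfix
      obtain ⟨σ, hσ, hne⟩ := hfix
      set w := σ • v' - v' with hw
      have hw0 : w ≠ 0 := sub_ne_zero.mpr hne
      have hwV : w ∈ V := V.sub_mem (hV σ hσ _ hv'V) hv'V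
      have hwr : ∀ i, b.repr w i = baseAut σ (b.repr v' i) - b.repr v' i := by
        intro i
        rw [hw, map_sub, Finsupp.sub_apply, repr_smul b hb hσ]
      have hwsub : (b.repr w).support ⊆ (b.repr v).support.erase j := by
        intro i hi
        rw [Finsupp.mem_support_iff, hwr] at hi
        rw [Finset.mem_erase]
        constructor
        · rintro rfl
          rw [hj1, map_one, sub_self] at hi
          exact hi rfl
        · rw [← hsupp, Finsupp.mem_support_iff]
          intro h0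
          rw [h0, map_zero, sub_self] at hi
          exact hi rfl
      obtain ⟨u, hu, hu0, huf, hus⟩ := ih w hwV hw0 (by
        have h1 := Finset.card_le_card hwsub
        rw [Finset.card_erase_of_mem hj] at h1
        omega)
      exact ⟨u, hu, hu0, huf, (hus.trans hwsub).trans (Finset.erase_subset _ _)⟩

include hb in
/-- Claim B -/
theorem mem_span_fixed (V : Submodule K F) (hV : ∀ σ ∈ 𝒢.G, ∀ v ∈ V, σ • v ∈ V) :
    ∀ (n : ℕ) (v : F), v ∈ V → (b.repr v).support.card ≤ n →
      v ∈ Submodule.span K {u : F | u ∈ V ∧ 𝒢.Fix u} := by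
  classical
  intro n
  induction n with
  | zero =>
    intro v _ hn
    have h1 : (b.repr v).support = ∅ := Finset.card_eq_zero.mp (Nat.le_zero.mp hn)
    rw [b.repr.map_eq_zero_iff.mp (Finsupp.support_eq_empty.mp h1)]
    exact Submodule.zero_mem _
  | succ n ih =>
    intro v hv hn
    by_cases hv0 : v = 0
    · rw [hv0]; exact Submodule.zero_mem _
    obtain ⟨u, hu, hu0, huf, hus⟩ := exists_fixed_le b hb V hV _ v hv hv0 le_rfl
    have hne : (b.repr u).support.Nonempty := by
      rw [Finset.nonempty_iff_ne_empty]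
      intro h
      exact hu0 (b.repr.map_eq_zero_iff.mp (Finsupp.support_eq_empty.mp h))
    obtain ⟨j, hj⟩ := hne
    have hj0 : b.repr u j ≠ 0 := Finsupp.mem_support_iff.mp hj
    set w := v - (b.repr v j / b.repr u j) • u with hw
    have hwV : w ∈ V := V.sub_mem hv (V.smul_mem _ hu)
    have hwr : ∀ i, b.repr w i = b.repr v i - b.repr v j / b.repr u j * b.repr u i := by
      intro i
      rw [hw, map_sub, map_smul, Finsupp.sub_apply, Finsupp.smul_apply, smul_eq_mul]
    have hwsub : (b.repr w).support ⊆ (b.repr v).support.erase j := by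
      intro i hi
      rw [Finsupp.mem_support_iff, hwr] at hi
      rw [Finset.mem_erase]
      constructor
      · rintro rfl
        rw [div_mul_cancel₀ _ hj0, sub_self] at hi
        exact hi rfl
      · by_contra h0
        have h1 : b.repr v i = 0 := Finsupp.notMem_support_iff.mp h0
        have h2 : b.repr u i = 0 := by
          by_contra h3
          exact h0 (hus (Finsupp.mem_support_iff.mpr h3))
        rw [h1, h2, mul_zero, sub_self] at hi
        exact hi rfl
    have h1 := ih w hwV (by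
      have h1 := Finset.card_le_card hwsub
      rw [Finset.card_erase_of_mem (hus hj)] at h1
      omega)
    have h2 : v = w + (b.repr v j / b.repr u j) • u := by rw [hw, sub_add_cancel]
    rw [h2]
    exact Submodule.add_mem _ h1 (Submodule.smul_mem _ _ (Submodule.subset_span ⟨hu, huf⟩))

end Descent

/-- **Galois descent** for subspaces -/
theorem span_fixed (V : Submodule K F) (hV : ∀ σ ∈ 𝒢.G, ∀ v ∈ V, σ • v ∈ V) :
    V ≤ Submodule.span K {u : F | u ∈ V ∧ 𝒢.Fix u} := by
  obtain ⟨I, b, hb⟩ := exists_fixed_basis 𝒢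
  intro v hv
  exact mem_span_fixed b hb V hV _ v hv le_rfl

/-! ### Riemann-Roch spaces -/

section RRS

variable [IsAlgClosed K] [IsFunctionField K F] {𝒢}

theorem smul_mem_RR {σ : SemilinearAut K F} (D : Divisor K F) {f : F}
    (hf : f ∈ riemannRochSpace D) : σ • f ∈ riemannRochSpace (σ • D) := by
  rcases eq_or_ne f 0 with rfl | hf0
  · rw [smul_zero]; exact Submodule.zero_mem _
  have hf0' : σ • f ≠ 0 := by
    rw [smul_def]; exact (map_ne_zero_iff _ (RingEquiv.injective _)).mpr hf0
  rw [mem_iff_of_ne hf0']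
  intro v
  have h1 := (mem_iff_of_ne hf0).mp hf (σ⁻¹ • v)
  have h2 := SemilinearAut.ord_smul σ (σ⁻¹ • v) f
  rw [smul_inv_smul] at h2
  rw [SemilinearAut.divisor_smul_apply, h2]
  exact h1

theorem smul_divisorOf' (σ : SemilinearAut K F) (f : F) :
    σ • divisorOf (k := K) f = divisorOf (σ • f) := by
  ext P
  rw [SemilinearAut.divisor_smul_apply, divisorOf_apply, divisorOf_apply]
  have h := SemilinearAut.ord_smul σ (σ⁻¹ • P) f
  rw [smul_inv_smul] at h
  exact h.symm

theorem GD.Fix.div {f : F} (hf : 𝒢.Fix f) : 𝒢.FixD (divisorOf (k := K) f) := by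
  intro σ hσ
  rw [smul_divisorOf', hf σ hσ]

theorem GD.FixD.add {D D' : Divisor K F} (h : 𝒢.FixD D) (h' : 𝒢.FixD D') : 𝒢.FixD (D + D') := by
  intro σ hσ
  rw [smul_add, h σ hσ, h' σ hσ]

theorem GD.FixD.sub {D D' : Divisor K F} (h : 𝒢.FixD D) (h' : 𝒢.FixD D') : 𝒢.FixD (D - D') := by
  intro σ hσ
  rw [smul_sub, h σ hσ, h' σ hσ]

theorem GD.FixD.zsmul {D : Divisor K F} (h : 𝒢.FixD D) (n : ℤ) : 𝒢.FixD (n • D) := by
  intro σ hσ
  have h1 := (DistribSMul.toAddMonoidHom (Divisor K F) σ).map_zsmul n D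
  change σ • (n • D) = n • (σ • D) at h1
  rw [h1, h σ hσ]

theorem GD.FixD.nsmul {D : Divisor K F} (h : 𝒢.FixD D) (n : ℕ) : 𝒢.FixD (n • D) := by
  intro σ hσ
  have h1 := (DistribSMul.toAddMonoidHom (Divisor K F) σ).map_nsmul n D
  change σ • (n • D) = n • (σ • D) at h1
  rw [h1, h σ hσ]

theorem GD.FixD.single {P : Place K F} (h : ∀ σ ∈ 𝒢.G, σ • P = P) (n : ℤ) :
    𝒢.FixD (Finsupp.single P n) := by
  intro σ hσ
  rw [SemilinearAut.smul_single, h σ hσ]

variable [CharZero K] {g c : ℤ}

/-- the `ℚ`-space of fixed sections -/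
def secQ (𝒢 : GD K F) (D : Divisor K F) : AddSubgroup F where
  carrier := {f | f ∈ riemannRochSpace D ∧ 𝒢.Fix f}
  zero_mem' := ⟨Submodule.zero_mem _, fun σ _ => smul_zero σ⟩
  add_mem' := fun ha hb => ⟨Submodule.add_mem _ ha.1 hb.1, fun σ hσ => by
    rw [smul_add, ha.2 σ hσ, hb.2 σ hσ]⟩
  neg_mem' := fun ha => ⟨Submodule.neg_mem _ ha.1, fun σ hσ => by rw [smul_neg, ha.2 σ hσ]⟩

theorem rat_mem (D : Divisor K F) {f : F} (hf : f ∈ secQ 𝒢 D) (t : ℚ) :
    algebraMap K F (t : K) * f ∈ secQ 𝒢 D := by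
  refine ⟨?_, fun σ hσ => ?_⟩
  · rw [← Algebra.smul_def]
    exact Submodule.smul_mem _ _ hf.1
  · rw [smul_mul', hf.2 σ hσ, SemilinearAut.smul_algebraMap, map_ratCast]

/-- fixed sections not vanishing at finitely many places -/
theorem exists_sec (hRR : RR K F g c) {D : Divisor K F} (hD : 𝒢.FixD D)
    (hdeg : c + 1 ≤ Divisor.degree D) (T : Finset (Place K F)) :
    ∃ f ∈ secQ 𝒢 D, f ≠ 0 ∧ ∀ P ∈ T, P.ord f = -D P := by
  classical
  -- non-vanishing at one place
  have hone : ∀ P : Place K F, ∃ f ∈ secQ 𝒢 D, f ≠ 0 ∧ P.ord f = -D P := by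
    intro P
    obtain ⟨f, hf, hf0, hfP⟩ := hRR.bpf hdeg P
    have h1 := span_fixed 𝒢 (riemannRochSpace D) (fun σ hσ v hv => by
      have := smul_mem_RR (σ := σ) D hv
      rwa [hD σ hσ] at this) hf
    by_contra hcon
    push Not at hcon
    have hsub : Submodule.span K {u : F | u ∈ riemannRochSpace D ∧ 𝒢.Fix u} ≤
        riemannRochSpace (D - Finsupp.single P 1) := by
      rw [Submodule.span_le]
      intro u hu
      rcases eq_or_ne u 0 with rfl | hu0
      · exact Submodule.zero_mem _
      have h2 := hcon u hu hu0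
      have h3 := (mem_iff_of_ne hu0).mp hu.1
      show u ∈ riemannRochSpace (D - Finsupp.single P 1)
      rw [mem_iff_of_ne hu0]
      intro v
      rw [Finsupp.sub_apply]
      by_cases hv : v = P
      · subst hv
        rw [Finsupp.single_eq_same]
        have := h3 v
        omega
      · rw [Finsupp.single_eq_of_ne hv]
        have := h3 v
        omega
    have h2 := (mem_iff_of_ne hf0).mp (hsub h1) P
    rw [Finsupp.sub_apply, Finsupp.single_eq_same, hfP] at h2
    omega
  induction T using Finset.induction_on with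
  | empty =>
    obtain ⟨P⟩ : Nonempty (Place K F) := by
      obtain ⟨t, ht, -⟩ := IsFunctionField.exists_transcendental (k := K) (F := F)
      obtain ⟨w, -⟩ := exists_ord_pos_of_transcendental (k := K) ht
      exact ⟨w⟩
    obtain ⟨f, hf, hf0, -⟩ := hone P
    exact ⟨f, hf, hf0, fun P hP => absurd hP (Finset.notMem_empty P)⟩
  | insert P T hPT ih =>
    obtain ⟨f₁, hf₁, hf₁0, hT⟩ := ih
    by_cases hP1 : P.ord f₁ = -D P
    · refine ⟨f₁, hf₁, hf₁0, fun Q hQ => ?_⟩
      rcases Finset.mem_insert.mp hQ with rfl | hQ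
      · exact hP1
      · exact hT Q hQ
    obtain ⟨f₂, hf₂, hf₂0, hP2⟩ := hone P
    -- `f₂ + t f₁`
    have hbad : ∀ Q ∈ T, ∃ a : K, ∀ t : ℚ, (t : K) ≠ a →
        f₂ + algebraMap K F (t : K) * f₁ ≠ 0 ∧
          Q.ord (f₂ + algebraMap K F (t : K) * f₁) = -D Q := by
      intro Q hQ
      have hq1 := hT Q hQ
      -- `f₂ / f₁` is regular at `Q`
      have h3 := (mem_iff_of_ne hf₂0).mp hf₂.1 Q
      have hreg : f₂ / f₁ ∈ Q.toValuationSubring := by
        rw [mem_iff_ord Q (div_ne_zero hf₂0 hf₁0), ord_div Q hf₂0 hf₁0, hq1]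
        omega
      refine ⟨-value Q (f₂ / f₁), fun t ht => ?_⟩
      set h := f₂ / f₁ + algebraMap K F (t : K) with hh
      have e1 : f₂ + algebraMap K F (t : K) * f₁ = h * f₁ := by
        rw [hh, add_mul, div_mul_cancel₀ _ hf₁0]
      have hmem : algebraMap K F (t : K) ∈ Q.toValuationSubring := Q.algebraMap_mem' _
      have hval : value Q h = value Q (f₂ / f₁) + (t : K) := by
        rw [hh, value_add Q hreg hmem, value_algebraMap]
      have hvne : value Q h ≠ 0 := by
        rw [hval]
        intro h0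
        exact ht (by linear_combination h0)
      have hh0 : h ≠ 0 := by
        intro h0
        rw [h0] at hvne
        apply hvne
        have := value_algebraMap (k := K) Q (0 : K)
        rwa [map_zero] at this
      have hord : Q.ord h = 0 := by
        have hmemh : h ∈ Q.toValuationSubring := Subring.add_mem _ hreg hmem
        have h4 := (mem_iff_ord Q hh0).mp hmemh
        by_contra h5
        refine hvne ((value_eq_zero_iff Q hmemh).mpr ?_)
        rw [Q.adicValuation_eq_exp_neg_ord hh0, ← WithZero.exp_zero, WithZero.exp_lt_exp]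
        omega
      refine ⟨by rw [e1]; exact mul_ne_zero hh0 hf₁0, ?_⟩
      rw [e1, Q.ord_mul hh0 hf₁0, hord, hq1]
      ring
    choose! a ha using hbad
    obtain ⟨t, ht0, ht⟩ : ∃ t : ℚ, t ≠ 0 ∧ ∀ Q ∈ T, (t : K) ≠ a Q := by
      have hinf : Set.Infinite (Set.univ : Set ℚ) := Set.infinite_univ
      have hfin : Set.Finite ({0} ∪ {t : ℚ | ∃ Q ∈ T, (t : K) = a Q}) := by
        refine (Set.finite_singleton 0).union ?_
        have : {t : ℚ | ∃ Q ∈ T, (t : K) = a Q} ⊆
            (fun t : ℚ => (t : K)) ⁻¹' (T.image a : Set K) := by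
          rintro t ⟨Q, hQ, h⟩
          simp only [Set.mem_preimage, Finset.coe_image, Set.mem_image]
          exact ⟨Q, hQ, h.symm⟩
        exact ((Finset.finite_toSet _).preimage (Rat.cast_injective.injOn)).subset this
      obtain ⟨t, -, ht⟩ := hinf.exists_notMem_finite hfin
      simp only [Set.mem_union, Set.mem_singleton_iff, Set.mem_setOf_eq, not_or, not_exists,
        not_and] at ht
      exact ⟨t, ht.1, fun Q hQ => ht.2 Q hQ⟩
    -- at `P`: `f₂` has the exact order and `f₁` a bigger one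
    have h3 := (mem_iff_of_ne hf₁0).mp hf₁.1 P
    have htK : algebraMap K F (t : K) ≠ 0 := by
      rw [Ne, map_eq_zero]
      exact_mod_cast ht0
    have hPt : f₂ + algebraMap K F (t : K) * f₁ ≠ 0 ∧
        P.ord (f₂ + algebraMap K F (t : K) * f₁) = -D P := by
      have h4 : P.ord (algebraMap K F (t : K) * f₁) = P.ord f₁ := by
        rw [P.ord_mul htK hf₁0, ord_algebraMap, zero_add]
      have h5 : P.ord f₂ < P.ord (algebraMap K F (t : K) * f₁) := by rw [h4]; omega
      obtain ⟨h6, h7⟩ := ord_add_eq_left P hf₂0 (Or.inr h5)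
      exact ⟨h6, h7.trans hP2⟩
    refine ⟨f₂ + algebraMap K F (t : K) * f₁, (secQ 𝒢 D).add_mem hf₂ (rat_mem D hf₁ t), hPt.1,
      fun Q hQ => ?_⟩
    rcases Finset.mem_insert.mp hQ with rfl | hQ
    · exact hPt.2
    · exact (ha Q hQ t (ht Q hQ)).2

end RRS

end Fermat.Agent.MWG
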