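import Fermat.Agent.MWG.Move
import Fermat.Agent.MWH.Val
import Fermat.Agent.GoodRed.Rigid

/-!
# S17 (H), global part: fixed embeddings, fixed representatives of fixed classes
-/

set_option autoImplicit false
set_option linter.unusedSectionVars false
set_option linter.style.haveILetI false

noncomputable section

namespace Fermat.Agent.MWG

open AlgebraicCurve Fermat.Agent.Curves Fermat.Agent.PicFlat Fermat.Agent.MWH SemilinearAut Fermat.Agent.GoodRed
open scoped Pointwise IntermediateField

variable {K F : Type*} [Field K] [IsAlgClosed K] [CharZero K] [Field F] [Algebra K F]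
  [IsFunctionField K F]

/-- **fixed representatives of fixed classes** -/
theorem exists_fixD (𝒢 : GD K F) {P₀ : Place K F} (hP₀ : ∀ σ ∈ 𝒢.G, σ • P₀ = P₀)
    (D : Divisor K F) (hcls : ∀ σ ∈ 𝒢.G, ∃ h : F, h ≠ 0 ∧ divisorOf h = σ • D - D) :
    ∃ D' : Divisor K F, 𝒢.FixD D' ∧ ∃ f : F, f ≠ 0 ∧ D' = D + divisorOf f := by
  classical
  obtain ⟨g, c, hRR⟩ := exists_RR (k := K) (F := F)
  set L : ℤ → Divisor K F := fun k => D + Finsupp.single P₀ k with hL
  have hdeg : ∀ k, Divisor.degree (L k) = Divisor.degree D + k := fun k => by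
    rw [hL]; simp only; rw [map_add, degree_single_one]
  have hex : ∃ k : ℤ, 1 ≤ ell (L k) := by
    refine ⟨g - Divisor.degree D, ?_⟩
    have h1 := hRR.le (L (g - Divisor.degree D))
    rw [hdeg] at h1
    omega
  have hbd : ∀ k : ℤ, 1 ≤ ell (L k) → -Divisor.degree D ≤ k := by
    intro k hk
    by_contra hcon
    push Not at hcon
    have : ell (L k) = 0 := ell_eq_zero (by rw [hdeg]; omega)
    omega
  obtain ⟨k, hk1, hkmin⟩ := Int.exists_least_of_bdd ⟨_, hbd⟩ hex
  have hpred : ell (L (k - 1)) = 0 := by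
    by_contra h
    have := hkmin (k - 1) (by omega)
    omega
  have hLk : L k = L (k - 1) + Finsupp.single P₀ 1 := by
    rw [hL]; simp only
    rw [add_assoc, ← Finsupp.single_add, sub_add_cancel]
  have hk : ell (L k) = 1 := by
    have h1 := ell_add_le (L (k - 1)) (Finsupp.single P₀ 1) (by
      rw [Finsupp.single_nonneg]; norm_num)
    rw [← hLk, degree_single_one, hpred] at h1
    omega
  haveI : FiniteDimensional K (riemannRochSpace (L k)) := finiteDimensional_riemannRochSpace _
  obtain ⟨⟨f₀, hf₀⟩, hf₀0, hspan⟩ := finrank_eq_one_iff'.mp hk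
  have hf0 : f₀ ≠ 0 := fun h => hf₀0 (Subtype.ext h)
  set E₀ := divisorOf (k := K) f₀ + L k with hE₀
  have hE₀fix : ∀ σ ∈ 𝒢.G, σ • E₀ = E₀ := by
    intro σ hσ
    obtain ⟨h, hh0, hh⟩ := hcls σ hσ
    have hσf : σ • f₀ ≠ 0 := by
      rw [smul_def]; exact (map_ne_zero_iff _ (RingEquiv.injective _)).mpr hf0
    have h1 : σ • f₀ ∈ riemannRochSpace (σ • L k) := smul_mem_RR _ hf₀
    have h2 : σ • L k = L k + divisorOf h := by
      rw [hL]; simp only
      rw [smul_add, SemilinearAut.smul_single, hP₀ σ hσ, hh]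
      abel
    have h3 : h * (σ • f₀) ∈ riemannRochSpace (L k) := by
      rw [mem_iff_of_ne (mul_ne_zero hh0 hσf)]
      intro P
      rw [h2, mem_iff_of_ne hσf] at h1
      have h4 := h1 P
      rw [Finsupp.add_apply, divisorOf_apply] at h4
      rw [P.ord_mul hh0 hσf]
      omega
    obtain ⟨a, ha⟩ := hspan ⟨_, h3⟩
    have ha' : a • f₀ = h * (σ • f₀) := congrArg Subtype.val ha
    have ha0 : a ≠ 0 := by
      rintro rfl
      rw [zero_smul] at ha'
      exact mul_ne_zero hh0 hσf ha'.symm
    have h5 : divisorOf (k := K) h + divisorOf (σ • f₀) = divisorOf f₀ := by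
      ext P
      rw [Finsupp.add_apply, divisorOf_apply, divisorOf_apply, divisorOf_apply,
        ← P.ord_mul hh0 hσf, ← ha', Algebra.smul_def,
        P.ord_mul (by rwa [Ne, map_eq_zero]) hf0, ord_algebraMap, zero_add]
    rw [hE₀, smul_add, smul_divisorOf', h2, ← h5]
    abel
  refine ⟨E₀ - Finsupp.single P₀ k, ?_, f₀, hf0, ?_⟩
  · intro σ hσ
    rw [smul_sub, hE₀fix σ hσ, SemilinearAut.smul_single, hP₀ σ hσ]
  · rw [hE₀, hL]
    simp only
    abel

/-- **fixed embeddings** -/
theorem exists_good (𝒢 : Glob K F) {m : ℕ} (hm : 𝒢.c + 3 ≤ m) (hm1 : 1 ≤ m) :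
    ∃ E : Emb K F, 𝒢.Good E ∧ E.m = m := by
  classical
  have hfixI : ∀ n : ℤ, 𝒢.FixD (Finsupp.single 𝒢.inf n) :=
    fun n => GD.FixD.single (𝒢 := 𝒢.toGD) 𝒢.fixinf n
  -- the section with the full pole
  obtain ⟨s, hs, hs0, hsP⟩ := exists_sec (𝒢 := 𝒢.toGD) 𝒢.rr (D := Finsupp.single 𝒢.inf (m : ℤ))
    (hfixI m) (by rw [degree_single_one]; omega) {𝒢.inf}
  have hsord : 𝒢.inf.ord s = -(m : ℤ) := by
    rw [hsP 𝒢.inf (Finset.mem_singleton_self _), Finsupp.single_eq_same]
  -- the smaller space
  set V := riemannRochSpace (Finsupp.single 𝒢.inf ((m : ℤ) - 1)) with hV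
  haveI : FiniteDimensional K V := finiteDimensional_riemannRochSpace _
  set S : Set F := {u | u ∈ V ∧ 𝒢.Fix u} with hS
  have hspanS : Submodule.span K S = V := by
    apply le_antisymm
    · exact Submodule.span_le.mpr fun u hu => hu.1
    · refine span_fixed 𝒢.toGD V fun σ hσ v hv => ?_
      have := smul_mem_RR (σ := σ) _ hv
      rwa [hfixI _ σ hσ] at this
  have h1S : (1 : F) ∈ S := by
    refine ⟨?_, fun σ _ => by rw [SemilinearAut.smul_def, map_one]⟩
    rw [hV, mem_iff_of_ne one_ne_zero]
    intro P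
    rw [P.ord_one]
    have : (0 : ℤ) ≤ (Finsupp.single 𝒢.inf ((m : ℤ) - 1) : Divisor K F) P := by
      by_cases hP : P = 𝒢.inf
      · subst hP; rw [Finsupp.single_eq_same]; omega
      · rw [Finsupp.single_eq_of_ne hP]
    omega
  have h1li : LinearIndepOn K id ({1} : Set F) := LinearIndepOn.singleton (by simp)
  obtain ⟨b, hbS, h1b, hSb, hbli⟩ := exists_linearIndepOn_extension (K := K) (v := (id : F → F))
    h1li (Set.singleton_subset_iff.mpr h1S)
  simp only [Set.image_id] at hSb
  have hbspan : Submodule.span K b = V := by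
    apply le_antisymm
    · rw [← hspanS]; exact Submodule.span_mono hbS
    · rw [← hspanS]; exact Submodule.span_le.mpr hSb
  have hbli' : LinearIndependent K (Subtype.val : b → F) := hbli
  have hbfin : Finite b := by
    have h2 : LinearIndependent K (fun x : b => (⟨x.1, by
        rw [← hbspan]; exact Submodule.subset_span x.2⟩ : V)) := by
      refine LinearIndependent.of_comp V.subtype ?_
      exact hbli'
    exact h2.finite
  haveI := Fintype.ofFinite b
  obtain ⟨n, ⟨e⟩⟩ := Finite.exists_equiv_fin b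
  have hn0 : n ≠ 0 := by
    rintro rfl
    exact (e ⟨1, h1b rfl⟩).elim0
  obtain ⟨n', rfl⟩ := Nat.exists_eq_succ_of_ne_zero hn0
  -- put `1` first
  set e' : Fin (n' + 1) ≃ b := (Equiv.swap 0 (e ⟨1, h1b rfl⟩)).trans e.symm with he'
  have he'0 : (e' 0 : F) = 1 := by
    rw [he', Equiv.trans_apply, Equiv.swap_apply_left, Equiv.symm_apply_apply]
  set u : Fin (n' + 1) → F := fun i => (e' i : F) with hu
  have huli : LinearIndependent K u := hbli'.comp e' e'.injective
  have hurange : Set.range u = b := by
    ext x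
    constructor
    · rintro ⟨i, rfl⟩; exact (e' i).2
    · intro hx; exact ⟨e'.symm ⟨x, hx⟩, by simp [hu]⟩
  have hmemV : ∀ i, u i ∈ V := fun i => by
    rw [← hbspan]; exact Submodule.subset_span (e' i).2
  have hsV : s ∉ V := by
    intro h
    rw [hV, mem_iff_of_ne hs0] at h
    have := h 𝒢.inf
    rw [hsord, Finsupp.single_eq_same] at this
    omega
  have hfixf : ∀ i : Fin (n' + 1 + 1), 𝒢.Fix ((Fin.snoc u s : Fin (n' + 1 + 1) → F) i) := by
    intro i
    refine Fin.lastCases ?_ (fun j => ?_) i
    · rw [Fin.snoc_last]; exact hs.2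
    · rw [Fin.snoc_castSucc]
      exact (hbS (e' j).2).2
  refine ⟨{ inf := 𝒢.inf, m := m, r := n' + 1, f := Fin.snoc u s, zero := ?_, li := ?_,
            span := ?_, ord_last := ?_, ord_lt := ?_, g := 𝒢.g, c := 𝒢.c, rr := 𝒢.rr,
            large := hm, pos := hm1 }, ⟨rfl, rfl, rfl, hfixf⟩, rfl⟩
  · have : (0 : Fin (n' + 1 + 1)) = Fin.castSucc 0 := rfl
    rw [this, Fin.snoc_castSucc]
    exact he'0
  · rw [linearIndependent_finSnoc, hurange, hbspan]
    exact ⟨huli, hsV⟩
  · apply le_antisymm
    · rw [Submodule.span_le]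
      rintro _ ⟨i, rfl⟩
      refine Fin.lastCases ?_ (fun j => ?_) i
      · rw [Fin.snoc_last]; exact hs.1
      · rw [Fin.snoc_castSucc]
        refine riemannRochSpace_mono ?_ (hmemV j)
        intro P
        by_cases hP : P = 𝒢.inf
        · subst hP; rw [Finsupp.single_eq_same, Finsupp.single_eq_same]; omega
        · rw [Finsupp.single_eq_of_ne hP, Finsupp.single_eq_of_ne hP]
    · intro v hv
      have hsub : Submodule.span K b ≤ Submodule.span K (Set.range (Fin.snoc u s : Fin (n' + 1 + 1) → F)) := by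
        rw [← hurange]
        refine Submodule.span_mono ?_
        rintro _ ⟨i, rfl⟩
        exact ⟨Fin.castSucc i, Fin.snoc_castSucc _ _ _⟩
      have hsmem : s ∈ Submodule.span K (Set.range (Fin.snoc u s : Fin (n' + 1 + 1) → F)) :=
        Submodule.subset_span ⟨Fin.last _, Fin.snoc_last _ _⟩
      rcases eq_or_ne v 0 with rfl | hv0
      · exact Submodule.zero_mem _
      have hvm := (mem_iff_of_ne hv0).mp hv
      by_cases hord : 𝒢.inf.ord v = -(m : ℤ)
      · -- subtract a multiple of `s`
        have hr0 : v / s ≠ 0 := div_ne_zero hv0 hs0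
        have hro : 𝒢.inf.ord (v / s) = 0 := by
          rw [ord_div _ hv0 hs0, hord, hsord]; ring
        have hrm : v / s ∈ 𝒢.inf.toValuationSubring := by
          rw [mem_iff_ord _ hr0, hro]
        set a := value 𝒢.inf (v / s) with ha
        have h3 := value_spec 𝒢.inf hrm
        rw [val_lt_one_iff, ← ha] at h3
        have h4 : v - a • s ∈ V := by
          have e1 : v - a • s = (v / s - algebraMap K F a) * s := by
            rw [sub_mul, div_mul_cancel₀ _ hs0, Algebra.smul_def]
          rcases h3 with h3 | h3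
          · rw [e1, h3, zero_mul]; exact Submodule.zero_mem _
          · have h5 : v / s - algebraMap K F a ≠ 0 := by
              intro h6
              rw [h6] at h3
              simp at h3
            have h7 : v - a • s ≠ 0 := by rw [e1]; exact mul_ne_zero h5 hs0
            rw [hV, mem_iff_of_ne h7]
            intro P
            by_cases hP : P = 𝒢.inf
            · subst hP
              rw [e1, Place.ord_mul _ h5 hs0, hsord, Finsupp.single_eq_same]
              omega
            · rw [Finsupp.single_eq_of_ne hP]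
              have h8 : v - a • s ∈ riemannRochSpace (Finsupp.single 𝒢.inf (m : ℤ)) :=
                Submodule.sub_mem _ hv (Submodule.smul_mem _ _ hs.1)
              have := (mem_iff_of_ne h7).mp h8 P
              rwa [Finsupp.single_eq_of_ne hP] at this
        have h5 : v = (v - a • s) + a • s := by rw [sub_add_cancel]
        rw [h5]
        refine Submodule.add_mem _ (hsub ?_) (Submodule.smul_mem _ _ hsmem)
        rw [hbspan]; exact h4
      · refine hsub ?_
        rw [hbspan, hV, mem_iff_of_ne hv0]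
        intro P
        by_cases hP : P = 𝒢.inf
        · subst hP
          have := hvm 𝒢.inf
          rw [Finsupp.single_eq_same] at this ⊢
          omega
        · have := hvm P
          rw [Finsupp.single_eq_of_ne hP] at this ⊢
          exact this
  · rw [Fin.snoc_last]; exact hsord
  · intro i hi
    revert hi
    refine Fin.lastCases (fun h => absurd rfl h) (fun j _ => ?_) i
    rw [Fin.snoc_castSucc]
    exact hmemV j

end Fermat.Agent.MWG
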