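import Fermat.Agent.MWG.Bil
import Fermat.Agent.MWI.Final
import Fermat.Agent.MWS.North
import Fermat.Agent.MWH.T1

/-!
# S17 (H), global part: heights on the fixed classes
-/

set_option autoImplicit false
set_option linter.unusedSectionVars false
set_option linter.style.haveILetI false

noncomputable section

namespace Fermat.Agent.MWG

open AlgebraicCurve Fermat.Agent.Curves Fermat.Agent.PicFlat Fermat.Agent.MWH SemilinearAut
  Fermat.Agent.GoodRed
open scoped Pointwise IntermediateField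

variable {K F : Type*} [Field K] [IsAlgClosed K] [CharZero K] [Field F] [Algebra K F]
  [IsFunctionField K F] {𝒢 : Glob K F}

theorem mk_eq_iff (D D' : Divisor.degZero (K := K) (F := F)) :
    Pic0.mk D = Pic0.mk D' ↔ Lq (D : Divisor K F) D' := by
  unfold Pic0.mk
  rw [QuotientAddGroup.eq, AddSubgroup.mem_addSubgroupOf]
  constructor
  · rintro ⟨f, hf0, hf⟩
    refine ⟨f, hf0, ?_⟩
    ext P
    rw [divisorOf_apply, ← hf P]
    simp only [AddSubgroup.coe_add, NegMemClass.coe_neg, Finsupp.add_apply, Finsupp.neg_apply,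
      Finsupp.sub_apply]
    ring
  · rintro ⟨f, hf0, hf⟩
    refine ⟨f, hf0, fun P => ?_⟩
    have := DFunLike.congr_fun hf P
    rw [divisorOf_apply] at this
    rw [this]
    simp only [AddSubgroup.coe_add, NegMemClass.coe_neg, Finsupp.add_apply, Finsupp.neg_apply,
      Finsupp.sub_apply]
    ring

/-- the fixed classes -/
def fixedCls (𝒢 : Glob K F) : AddSubgroup (Pic0 K F) where
  carrier := {x | ∀ σ ∈ 𝒢.G, σ • x = x}
  zero_mem' := fun σ _ => smul_zero (A := Pic0 K F) σ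
  add_mem' := fun {a b} ha hb σ hσ => by rw [smul_add, ha σ hσ, hb σ hσ]
  neg_mem' := fun {a} ha σ hσ => by rw [smul_neg, ha σ hσ]

theorem exists_fix_rep (x : fixedCls 𝒢) : ∃ D : Divisor.degZero (K := K) (F := F),
    𝒢.FixD (D : Divisor K F) ∧ Pic0.mk D = (x : Pic0 K F) := by
  obtain ⟨D, hD⟩ := Pic0.mk_surjective (x : Pic0 K F)
  have hcls : ∀ σ ∈ 𝒢.G, ∃ h : F, h ≠ 0 ∧ divisorOf h = σ • (D : Divisor K F) - (D : Divisor K F) := by
    intro σ hσ
    have h1 := x.2 σ hσ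
    rw [← hD, pic0_smul_mk] at h1
    exact (mk_eq_iff _ _).mp h1.symm
  obtain ⟨D', hD', f, hf0, hf⟩ := exists_fixD 𝒢.toGD 𝒢.fixinf (D : Divisor K F) hcls
  have hdeg : Divisor.degree D' = 0 := by
    rw [hf, map_add, degree_divisorOf, add_zero]
    exact D.2
  refine ⟨⟨D', hdeg⟩, hD', ?_⟩
  rw [← hD, mk_eq_iff]
  refine Lq.symm ⟨f, hf0, ?_⟩
  have h1 : divisorOf (k := K) f = D' - (D : Divisor K F) := by rw [hf]; abel
  exact h1

/-- the fixed classes as a `Cls` -/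
def clsOf (𝒢 : Glob K F) : Cls 𝒢 (fixedCls 𝒢) where
  δ x := ((exists_fix_rep x).choose : Divisor K F)
  fix x := (exists_fix_rep x).choose_spec.1
  deg x := (exists_fix_rep x).choose.2
  add x y := by
    have hx := (exists_fix_rep x).choose_spec.2
    have hy := (exists_fix_rep y).choose_spec.2
    have hxy := (exists_fix_rep (x + y)).choose_spec.2
    have h1 : Pic0.mk (exists_fix_rep (x + y)).choose =
        Pic0.mk ((exists_fix_rep x).choose + (exists_fix_rep y).choose) := by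
      rw [hxy, Pic0.mk_add, hx, hy]; rfl
    exact (mk_eq_iff _ _).mp h1
  inj x y h := by
    have hx := (exists_fix_rep x).choose_spec.2
    have hy := (exists_fix_rep y).choose_spec.2
    have h1 := (mk_eq_iff _ _).mpr h
    rw [hx, hy] at h1
    exact Subtype.ext h1

theorem inp_of (hUB : ∀ E : Emb K F, 𝒢.Good E → 2 * 𝒢.c + 2 ≤ E.m → LocUB E 𝒢.A) :
    Inp 𝒢 where
  ub := hUB
  north := MWS.northcottN 𝒢
  cmp E₀ E k h₀ h hk h2 hm := MWH.cmp 𝒢.A (h.inf.trans h₀.inf.symm) hm hk (by rw [h₀.c]; exact h2)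
  t1 E₀ E k d h₀ h hk hd h2 hm := MWH.t1 𝒢.A (h.inf.trans h₀.inf.symm) hm hk
    (by rw [h₀.c]; exact h2) hd (hUB E h (by
      rw [hm]
      have := m_le_mul E₀ hk
      have h3 : (E₀.m : ℤ) ≤ ((k * E₀.m : ℕ) : ℤ) := by exact_mod_cast this
      omega))

theorem exists_base (𝒢 : Glob K F) : ∃ E₀ : Emb K F, Base 𝒢 E₀ := by
  obtain ⟨E, hE, hm⟩ := exists_good 𝒢 (m := 2 * 𝒢.c.natAbs + 3) (by omega) (by omega)
  exact ⟨E, hE, by rw [hm]; omega⟩

/-- **existence of the height** -/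
theorem heightSt_of (hUB : ∀ E : Emb K F, 𝒢.Good E → 2 * 𝒢.c + 2 ≤ E.m → LocUB E 𝒢.A) :
    MWI.HeightSt 𝒢 := by
  classical
  obtain ⟨E₀, hB⟩ := exists_base 𝒢
  obtain ⟨H, C, h0, hpar, hfin⟩ := exists_height (inp_of hUB) hB (clsOf 𝒢)
  refine ⟨fun x => if hx : x ∈ fixedCls 𝒢 then H ⟨x, hx⟩ else 0, C, fun x hx => ?_,
    fun x y hx hy => ?_, fun B => ?_⟩
  · have hx' : x ∈ fixedCls 𝒢 := hx
    beta_reduce
    rw [dif_pos hx']
    exact h0 _
  · have hx' : x ∈ fixedCls 𝒢 := hx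
    have hy' : y ∈ fixedCls 𝒢 := hy
    beta_reduce
    rw [dif_pos hx', dif_pos hy', dif_pos ((fixedCls 𝒢).add_mem hx' hy'),
      dif_pos ((fixedCls 𝒢).sub_mem hx' hy')]
    exact hpar ⟨x, hx'⟩ ⟨y, hy'⟩
  · refine ((hfin B).image Subtype.val).subset ?_
    rintro x ⟨hx, hxB⟩
    have hx' : x ∈ fixedCls 𝒢 := hx
    beta_reduce at hxB
    rw [dif_pos hx'] at hxB
    exact ⟨⟨x, hx'⟩, hxB, rfl⟩

/-- **Mordell-Weil for `J_0(N)`** from the local upper bound -/
theorem fg_of_locUB {N : ℕ} [NeZero N]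
    (hUB : ∀ E : Emb (AlgebraicClosure ℚ) (ModularCurve.modularFunctionFieldBar N),
      2 * E.c + 2 ≤ E.m → LocUB E (MWI.globBar N).A) : AddGroup.FG (MWW.JQ N) :=
  MWI.fg_of_heightSt (heightSt_of fun E hE h => hUB E (by rw [hE.c]; exact h))

end Fermat.Agent.MWG
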