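import Fermat.Agent.MWG.Setup

/-!
# S17 (H), global part: the moving lemma
-/

set_option autoImplicit false
set_option linter.unusedSectionVars false
set_option linter.style.haveILetI false

noncomputable section

namespace Fermat.Agent.MWG

open AlgebraicCurve Fermat.Agent.Curves Fermat.Agent.PicFlat Fermat.Agent.MWH SemilinearAut
open scoped Pointwise IntermediateField

variable {K F : Type*} [Field K] [IsAlgClosed K] [CharZero K] [Field F] [Algebra K F]
  [IsFunctionField K F]

theorem dvs_apply (s : Finset (Place K F)) (P : Place K F) [Decidable (P ∈ s)] :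
    dvs s P = if P ∈ s then 1 else 0 := by
  classical
  rw [dvs, Finsupp.finset_sum_apply]
  split_ifs with h
  · rw [Finset.sum_eq_single P]
    · rw [Finsupp.single_eq_same]
    · intro Q _ hQ
      exact Finsupp.single_eq_of_ne (Ne.symm hQ)
    · intro h'; exact absurd h h'
  · refine Finset.sum_eq_zero fun Q hQ => ?_
    exact Finsupp.single_eq_of_ne (fun h' => h (h' ▸ hQ))

theorem dvs_of_mem {s : Finset (Place K F)} {P : Place K F} (h : P ∈ s) : dvs s P = 1 := by
  classical
  rw [dvs_apply, if_pos h]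

theorem dvs_of_notMem {s : Finset (Place K F)} {P : Place K F} (h : P ∉ s) : dvs s P = 0 := by
  classical
  rw [dvs_apply, if_neg h]

theorem mem_iff_dvs {s : Finset (Place K F)} {P : Place K F} : P ∈ s ↔ dvs s P ≠ 0 := by
  classical
  rw [dvs_apply]
  split_ifs with h <;> simp [h]

theorem dvs_nonneg (s : Finset (Place K F)) : 0 ≤ dvs s := fun P => by
  classical
  rw [dvs_apply, Finsupp.coe_zero, Pi.zero_apply]
  split_ifs <;> norm_num

theorem degree_dvs (s : Finset (Place K F)) : Divisor.degree (dvs s) = s.card := by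
  rw [dvs, map_sum, Finset.sum_congr rfl fun P _ => degree_single_one P 1]
  simp

theorem dvs_injective : Function.Injective (dvs : Finset (Place K F) → Divisor K F) := by
  intro s t h
  ext P
  rw [mem_iff_dvs, h, ← mem_iff_dvs]

theorem dvs_empty : dvs (∅ : Finset (Place K F)) = 0 := by simp [dvs]

open Classical in
theorem dvs_union {s t : Finset (Place K F)} (h : Disjoint s t) : dvs (s ∪ t) = dvs s + dvs t := by
  rw [dvs, dvs, dvs, Finset.sum_union h]

theorem eq_dvs {D : Divisor K F} (h : ∀ P, D P = 0 ∨ D P = 1) : D = dvs D.support := by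
  classical
  ext P
  rw [dvs_apply]
  split_ifs with h1
  · rw [Finsupp.mem_support_iff] at h1
    exact (h P).resolve_left h1
  · rwa [Finsupp.notMem_support_iff] at h1

theorem stable_of_fixD {𝒢 : Glob K F} {s : Finset (Place K F)} (h : 𝒢.FixD (dvs s)) :
    𝒢.Stable s := by
  intro σ hσ P hP
  rw [mem_iff_dvs, ← h σ hσ, SemilinearAut.divisor_smul_apply, inv_smul_smul]
  exact mem_iff_dvs.mp hP

theorem fixD_of_stable {𝒢 : Glob K F} {s : Finset (Place K F)} (h : 𝒢.Stable s) :
    𝒢.FixD (dvs s) := by
  classical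
  intro σ hσ
  ext P
  rw [SemilinearAut.divisor_smul_apply]
  by_cases hP : P ∈ s
  · rw [dvs_of_mem hP, dvs_of_mem (h _ (𝒢.G.inv_mem hσ) P hP)]
  · rw [dvs_of_notMem hP, dvs_of_notMem]
    intro h1
    have := h σ hσ _ h1
    rw [smul_inv_smul] at this
    exact hP this

theorem Glob.Stable.union {𝒢 : Glob K F} [DecidableEq (Place K F)] {s t : Finset (Place K F)}
    (hs : 𝒢.Stable s) (ht : 𝒢.Stable t) : 𝒢.Stable (s ∪ t) := by
  intro σ hσ P hP
  rcases Finset.mem_union.mp hP with h | h
  · exact Finset.mem_union_left _ (hs σ hσ P h)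
  · exact Finset.mem_union_right _ (ht σ hσ P h)

/-- **Moving lemma** (reduced sections) -/
theorem moving {𝒢 : GD K F} {g c : ℤ} (hRR : RR K F g c) {D : Divisor K F} (hD : 𝒢.FixD D)
    (hdeg : c + 1 ≤ Divisor.degree D) (hdeg1 : 1 ≤ Divisor.degree D) (T : Finset (Place K F)) :
    ∃ f : F, f ≠ 0 ∧ 𝒢.Fix f ∧ ∃ s : Finset (Place K F), Disjoint s T ∧
      divisorOf f + D = dvs s := by
  classical
  obtain ⟨s₁, hs₁, hs₁0, hT₁⟩ := exists_sec hRR hD hdeg (T ∪ D.support)
  obtain ⟨s₂, hs₂, hs₂0, hT₂⟩ := exists_sec hRR hD hdeg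
    (T ∪ D.support ∪ (divisorOf (k := K) s₁).support)
  have hn₁ := fun P => (mem_iff_of_ne hs₁0).mp hs₁.1 P
  have hn₂ := fun P => (mem_iff_of_ne hs₂0).mp hs₂.1 P
  -- one of the two does not vanish
  have hor : ∀ P : Place K F, P.ord s₂ = -D P ∨ P.ord s₁ = -D P := by
    intro P
    by_cases hP : P ∈ T ∪ D.support ∪ (divisorOf (k := K) s₁).support
    · exact Or.inl (hT₂ P hP)
    · right
      rw [Finset.mem_union, Finset.mem_union, not_or, not_or] at hP
      have h1 : D P = 0 := Finsupp.notMem_support_iff.mp hP.1.2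
      have h2 : (divisorOf (k := K) s₁) P = 0 := Finsupp.notMem_support_iff.mp hP.2
      rw [divisorOf_apply] at h2
      rw [h1, h2, neg_zero]
  set h := s₁ / s₂ with hh
  have hh0 : h ≠ 0 := div_ne_zero hs₁0 hs₂0
  have hordh : ∀ P : Place K F, P.ord h = P.ord s₁ - P.ord s₂ := fun P => ord_div P hs₁0 hs₂0
  -- `h` is transcendental
  have htr : Transcendental K h := by
    rcases transcendental_or (k := K) h with ht | ⟨a, ha⟩
    · exact ht
    exfalso
    have h1 : ∀ P : Place K F, (divisorOf (k := K) s₁ + D) P = 0 := by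
      intro P
      rw [Finsupp.add_apply, divisorOf_apply]
      have h2 : P.ord h = 0 := by rw [ha]; exact ord_algebraMap P a
      rw [hordh] at h2
      rcases hor P with h3 | h3 <;> omega
    have h2 : divisorOf (k := K) s₁ + D = 0 := Finsupp.ext h1
    have h3 := congrArg Divisor.degree h2
    rw [map_add, degree_divisorOf, map_zero] at h3
    omega
  haveI := finiteDimensional_adjoin_simple (k := K) htr
  haveI : CharZero K⟮h⟯ := charZero_of_injective_algebraMap (algebraMap K K⟮h⟯).injective
  have hram := finite_ramified (k := K) htr (Algebra.IsAlgebraic.isSeparable_of_perfectField)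
  -- choose `t`
  obtain ⟨t, ht⟩ : ∃ t : ℚ, ∀ P : Place K F, (P ∈ T ∨ ¬ (h ∈ P.toValuationSubring ∧
      P.ord (h - algebraMap K F (value P h)) = 1)) → (t : K) ≠ -value P h := by
    have hfin : Set.Finite {t : ℚ | ∃ P : Place K F, (P ∈ T ∨ ¬ (h ∈ P.toValuationSubring ∧
      P.ord (h - algebraMap K F (value P h)) = 1)) ∧ (t : K) = -value P h} := by
      have h1 : Set.Finite ((fun P : Place K F => -value P h) '' ((T : Set (Place K F)) ∪
        {P | ¬ (h ∈ P.toValuationSubring ∧ P.ord (h - algebraMap K F (value P h)) = 1)})) :=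
        ((Finset.finite_toSet T).union hram).image _
      refine (h1.preimage (Rat.cast_injective (α := K)).injOn).subset ?_
      rintro t ⟨P, hP, htP⟩
      exact ⟨P, hP, htP.symm⟩
    obtain ⟨t, -, ht⟩ := (Set.infinite_univ (α := ℚ)).exists_notMem_finite hfin
    refine ⟨t, fun P hP h' => ht ⟨P, hP, h'⟩⟩
  set f := s₁ + algebraMap K F (t : K) * s₂ with hf
  have hfs : f ∈ secQ 𝒢 D := (secQ 𝒢 D).add_mem hs₁ (rat_mem D hs₂ t)
  have hfe : f = (h + algebraMap K F (t : K)) * s₂ := by
    rw [hf, hh, add_mul, div_mul_cancel₀ _ hs₂0]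
  have hht0 : h + algebraMap K F (t : K) ≠ 0 := by
    intro h1
    apply htr
    rw [eq_neg_of_add_eq_zero_left h1]
    exact (isAlgebraic_algebraMap _).neg
  have hf0 : f ≠ 0 := by rw [hfe]; exact mul_ne_zero hht0 hs₂0
  have hordf : ∀ P : Place K F, P.ord f = P.ord (h + algebraMap K F (t : K)) + P.ord s₂ :=
    fun P => by rw [hfe, P.ord_mul hht0 hs₂0]
  -- pole of `h`
  have hpole : ∀ P : Place K F, P.ord s₂ ≠ -D P → P.ord f = -D P := by
    intro P hP
    have h1 := (hor P).resolve_left hP
    have h2 := hn₂ P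
    have h3 : P.ord h < 0 := by rw [hordh, h1]; omega
    have h4 : P.ord (h + algebraMap K F (t : K)) = P.ord h := by
      refine (ord_add_eq_left P hh0 ?_).2
      rcases eq_or_ne (algebraMap K F (t : K)) 0 with h5 | h5
      · exact Or.inl h5
      · right
        rw [ord_algebraMap]
        exact h3
    rw [hordf, h4, hordh]
    omega
  have hreg : ∀ P : Place K F, P.ord s₂ = -D P → h ∈ P.toValuationSubring := by
    intro P hP
    rw [mem_iff_ord P hh0, hordh, hP]
    have := hn₁ P
    omega
  have hunit : ∀ P : Place K F, P.ord s₂ = -D P → (t : K) ≠ -value P h →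
      P.ord (h + algebraMap K F (t : K)) = 0 := by
    intro P hP htP
    have hm := hreg P hP
    have hm' : algebraMap K F (t : K) ∈ P.toValuationSubring := P.algebraMap_mem' _
    have hmm : h + algebraMap K F (t : K) ∈ P.toValuationSubring :=
      Subring.add_mem _ hm hm'
    have h1 : value P (h + algebraMap K F (t : K)) ≠ 0 := by
      rw [value_add P hm hm', value_algebraMap]
      intro h2
      exact htP (eq_neg_of_add_eq_zero_right h2)
    have h2 := (mem_iff_ord P hht0).mp hmm
    by_contra h3
    refine h1 ((value_eq_zero_iff P hmm).mpr ?_)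
    rw [P.adicValuation_eq_exp_neg_ord hht0, ← WithZero.exp_zero, WithZero.exp_lt_exp]
    omega
  have hval : ∀ P, (divisorOf (k := K) f + D) P = 0 ∨ (divisorOf (k := K) f + D) P = 1 := by
    intro P
    rw [Finsupp.add_apply, divisorOf_apply]
    by_cases hP : P.ord s₂ = -D P
    · by_cases htP : (t : K) = -value P h
      · right
        have h1 : h ∈ P.toValuationSubring ∧ P.ord (h - algebraMap K F (value P h)) = 1 := by
          by_contra h2
          exact ht P (Or.inr h2) htP
        rw [hordf, htP, map_neg, ← sub_eq_add_neg, h1.2, hP]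
        ring
      · left
        rw [hordf, hunit P hP htP, hP]
        ring
    · left
      rw [hpole P hP]
      ring
  refine ⟨f, hf0, hfs.2, _, ?_, eq_dvs hval⟩
  rw [Finset.disjoint_left]
  intro P hP hPT
  rw [Finsupp.mem_support_iff, Finsupp.add_apply, divisorOf_apply] at hP
  apply hP
  have h1 : P.ord s₂ = -D P := hT₂ P (by
    rw [Finset.mem_union, Finset.mem_union]; exact Or.inl (Or.inl hPT))
  rw [hordf, hunit P h1 (ht P (Or.inl hPT)), h1]
  ring

end Fermat.Agent.MWG
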