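import Fermat.Agent.MWG.Desc
import Fermat.Agent.MWH.Const
import Fermat.Agent.MWS.QAV

/-!
# S17 (H), global part: definitions

Ideles (`AP`), their degree (`LG`), the global data `Glob`, Slater determinants `slat` and the
covolume `Cov`.
-/

set_option autoImplicit false
set_option linter.unusedSectionVars false
set_option linter.style.haveILetI false

noncomputable section

namespace Fermat.Agent.MWG

open AlgebraicCurve Fermat.Agent.Curves Fermat.Agent.PicFlat Fermat.Agent.MWH SemilinearAut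
open scoped Pointwise

/-! ### Ideles -/

section Ideles

variable {ι : Type*}

/-- positive and almost everywhere one -/
structure AP (a : ι → ℝ) : Prop where
  pos : ∀ v, 0 < a v
  fin : {v | a v ≠ 1}.Finite

/-- the degree of an idele -/
def LG (a : ι → ℝ) : ℝ := ∑ᶠ v, Real.log (a v)

theorem AP.one : AP (fun _ : ι => (1 : ℝ)) := ⟨fun _ => one_pos, by simp⟩

theorem AP.mul {a b : ι → ℝ} (ha : AP a) (hb : AP b) : AP (fun v => a v * b v) where
  pos v := mul_pos (ha.pos v) (hb.pos v)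
  fin := (ha.fin.union hb.fin).subset fun v hv => by
    simp only [Set.mem_ofPred_eq, Set.mem_union] at hv ⊢
    by_contra hcon
    push Not at hcon
    exact hv (by rw [hcon.1, hcon.2, one_mul])

theorem AP.inv {a : ι → ℝ} (ha : AP a) : AP (fun v => (a v)⁻¹) where
  pos v := inv_pos.mpr (ha.pos v)
  fin := ha.fin.subset fun v hv => by
    simp only [Set.mem_ofPred_eq] at hv ⊢
    intro h
    exact hv (by rw [h, inv_one])

theorem AP.div {a b : ι → ℝ} (ha : AP a) (hb : AP b) : AP (fun v => a v / b v) := by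
  simp only [div_eq_mul_inv]
  exact ha.mul hb.inv

theorem AP.pow {a : ι → ℝ} (ha : AP a) (n : ℕ) : AP (fun v => a v ^ n) where
  pos v := pow_pos (ha.pos v) n
  fin := ha.fin.subset fun v hv => by
    simp only [Set.mem_ofPred_eq] at hv ⊢
    intro h
    exact hv (by rw [h, one_pow])

theorem AP.prod {α : Type*} (s : Finset α) {a : α → ι → ℝ} (h : ∀ i ∈ s, AP (a i)) :
    AP (fun v => ∏ i ∈ s, a i v) := by
  classical
  induction s using Finset.induction_on with
  | empty => simpa using AP.one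
  | insert i s hi ih =>
    simp only [Finset.prod_insert hi]
    exact (h i (Finset.mem_insert_self i s)).mul
      (ih fun j hj => h j (Finset.mem_insert_of_mem hj))

theorem ap_of_mc {C : ι → ℝ} (h : MC C) : AP C := ⟨h.pos, h.fin⟩

theorem AP.log_fin {a : ι → ℝ} (ha : AP a) : (Function.support fun v => Real.log (a v)).Finite :=
  ha.fin.subset fun v hv => by
    simp only [Function.mem_support, Set.mem_ofPred_eq] at hv ⊢
    intro h
    exact hv (by rw [h, Real.log_one])

theorem LG_one : LG (fun _ : ι => (1 : ℝ)) = 0 := by simp [LG]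

theorem LG_mul {a b : ι → ℝ} (ha : AP a) (hb : AP b) :
    LG (fun v => a v * b v) = LG a + LG b := by
  rw [LG, LG, LG, ← finsum_add_distrib ha.log_fin hb.log_fin]
  exact finsum_congr fun v => Real.log_mul (ha.pos v).ne' (hb.pos v).ne'

theorem LG_inv {a : ι → ℝ} : LG (fun v => (a v)⁻¹) = -LG a := by
  rw [LG, LG, ← finsum_neg_distrib]
  exact finsum_congr fun v => Real.log_inv _

theorem LG_div {a b : ι → ℝ} (ha : AP a) (hb : AP b) :
    LG (fun v => a v / b v) = LG a - LG b := by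
  simp only [div_eq_mul_inv]
  rw [LG_mul ha hb.inv, LG_inv, sub_eq_add_neg]

theorem LG_pow {a : ι → ℝ} (n : ℕ) : LG (fun v => a v ^ n) = n * LG a := by
  simp only [LG, Real.log_pow]
  exact (smul_finsum (n : ℝ) (fun v => Real.log (a v))).symm

theorem LG_prod {α : Type*} (s : Finset α) {a : α → ι → ℝ} (h : ∀ i ∈ s, AP (a i)) :
    LG (fun v => ∏ i ∈ s, a i v) = ∑ i ∈ s, LG (a i) := by
  classical
  induction s using Finset.induction_on with
  | empty => simpa using LG_one
  | insert i s hi ih =>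
    simp only [Finset.prod_insert hi, Finset.sum_insert hi]
    rw [LG_mul (h i (Finset.mem_insert_self i s))
      (AP.prod s fun j hj => h j (Finset.mem_insert_of_mem hj)),
      ih fun j hj => h j (Finset.mem_insert_of_mem hj)]

theorem LG_mono {a b : ι → ℝ} (ha : AP a) (hb : AP b) (h : ∀ v, a v ≤ b v) : LG a ≤ LG b := by
  have h1 : 0 ≤ LG (fun v => b v / a v) := by
    refine finsum_nonneg fun v => Real.log_nonneg ?_
    rw [one_le_div (ha.pos v)]
    exact h v
  rw [LG_div hb ha] at h1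
  linarith

theorem LG_nonneg {a : ι → ℝ} (h : ∀ v, 1 ≤ a v) : 0 ≤ LG a :=
  finsum_nonneg fun v => Real.log_nonneg (h v)

end Ideles

section AV

variable {K ι : Type*} [Field K] (A : AVFam K ι)

theorem ap_nv {α : K} (hα : α ≠ 0) : AP (fun v => A.nv v α) :=
  ⟨fun v => (A.nv v).pos hα, A.fin α hα⟩

theorem ap_nrm {α : Type*} [Finite α] {c : α → K} (hc : c ≠ 0) : AP (fun v => A.nrm v c) where
  pos v := AVFam.nrm_pos v hc
  fin := by
    classical
    obtain ⟨i₀, hi₀⟩ := Function.ne_iff.1 hc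
    haveI : Nonempty α := ⟨i₀⟩
    have h1 : (⋃ i : α, {v | c i ≠ 0 ∧ A.nv v (c i) ≠ 1}).Finite := by
      refine Set.finite_iUnion fun i => ?_
      by_cases hi : c i = 0
      · simp [hi]
      · exact (A.fin _ hi).subset fun v hv => hv.2
    refine h1.subset fun v hv => ?_
    by_contra hcon
    simp only [Set.mem_iUnion, Set.mem_ofPred_eq, not_exists, not_and, not_not] at hcon hv
    apply hv
    refine le_antisymm (AVFam.nrm_le fun i => ?_) ?_
    · by_cases hi : c i = 0
      · rw [hi, map_zero]; exact zero_le_one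
      · exact (hcon i hi).le
    · have := AVFam.le_nrm (A := A) v c i₀
      rwa [hcon i₀ hi₀] at this

end AV

/-! ### Global data -/

/-- global data: an algebraically closed field with the places of `ℚ`, a function field with a
Galois action and a fixed place -/
structure Glob (K F : Type*) [Field K] [IsAlgClosed K] [CharZero K] [Field F] [Algebra K F]
    [IsFunctionField K F] extends GD K F where
  A : AVFam K (Option Nat.Primes)
  nv_inf : ∀ q : ℚ, A.nv none (q : K) = |(q : ℝ)|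
  nv_p : ∀ (p : Nat.Primes) (q : ℚ), A.nv (some p) (q : K) = ((padicNorm p q : ℚ) : ℝ)
  na : ∀ p, IsNonarchimedean (A.nv (some p))
  fixQ : ∀ a : K, (∀ σ ∈ G, baseAut σ a = a) → ∃ q : ℚ, (q : K) = a
  inf : Place K F
  fixinf : ∀ σ ∈ G, σ • inf = inf
  g : ℤ
  c : ℤ
  rr : RR K F g c

variable {K F : Type*} [Field K] [IsAlgClosed K] [CharZero K] [Field F] [Algebra K F]
  [IsFunctionField K F]

/-- the places as a `QAV` -/
def Glob.qav (𝒢 : Glob K F) : MWS.QAV K where
  nv := 𝒢.A.nv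
  inf q := by rw [eq_ratCast]; exact 𝒢.nv_inf q
  fin p q := by rw [eq_ratCast]; exact 𝒢.nv_p p q
  na := 𝒢.na
  triv := 𝒢.A.fin

/-- product formula -/
theorem Glob.pf (𝒢 : Glob K F) {q : ℚ} (hq : q ≠ 0) : LG (fun v => 𝒢.A.nv v (q : K)) = 0 := by
  have := 𝒢.qav.sum_rat hq
  rw [eq_ratCast] at this
  exact this

/-- an embedding compatible with the global data -/
structure Glob.Good (𝒢 : Glob K F) (E : Emb K F) : Prop where
  inf : E.inf = 𝒢.inf
  g : E.g = 𝒢.g
  c : E.c = 𝒢.c
  fix : ∀ i, 𝒢.Fix (E.f i)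

/-- a finite set of places which is stable under Galois -/
def Glob.Stable (𝒢 : Glob K F) (s : Finset (Place K F)) : Prop :=
  ∀ σ ∈ 𝒢.G, ∀ P ∈ s, σ • P ∈ s

/-- Slater determinants (all the maximal minors of the coordinates of `P₁, …, P_d`) -/
def slat {ι : Type*} (E : Emb K F) (A : AVFam K ι) (v : ι) {d : ℕ} (P : Fin d → Place K F) : ℝ :=
  A.nrm v (fun s : Fin d → Fin (E.r + 1) => Matrix.det (Matrix.of fun i j => E.x (P i) (s j)))

/-- the (logarithmic) covolume of the sections vanishing at `s` -/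
def Cov {ι : Type*} (E : Emb K F) (A : AVFam K ι) (s : Finset (Place K F)) : ℝ :=
  LG (fun v => slat E A v (fun i : Fin s.card => (s.equivFin.symm i : Place K F)))

/-- the height of an effective divisor (without its part at infinity) -/
def hD {ι : Type*} (E : Emb K F) (A : AVFam K ι) (R : Divisor K F) : ℝ := by
  classical
  exact LG (fun v => ∏ P ∈ R.support.erase E.inf, E.nx A v P ^ (R P).toNat)

/-- the reduced divisor of a finite set -/
def dvs (s : Finset (Place K F)) : Divisor K F := ∑ P ∈ s, Finsupp.single P 1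

/-- [A] **Siegel's lemma** for the sections vanishing at a stable set -/
def SiegelA (𝒢 : Glob K F) : Prop :=
  ∀ E : Emb K F, 𝒢.Good E → ∀ d : ℕ, d < E.r + 1 → 𝒢.c + d ≤ E.m →
    ∃ C : ℝ, ∀ s : Finset (Place K F), 𝒢.Stable s → 𝒢.inf ∉ s → s.card = d →
      ∃ q : Fin (E.r + 1) → ℚ, q ≠ 0 ∧ (∀ P ∈ s, E.dot (fun i => (q i : K)) P = 0) ∧
        LG (fun v => sup 𝒢.A v (fun i => (q i : K))) ≤ Cov E 𝒢.A s / ((E.r + 1 : ℕ) - d : ℝ) + C

/-- [N] **Northcott** for stable effective divisors -/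
def NorthcottN (𝒢 : Glob K F) : Prop :=
  ∀ E : Emb K F, 𝒢.Good E → ∀ (e : ℤ) (B : ℝ),
    {R : Divisor K F | 0 ≤ R ∧ 𝒢.FixD R ∧ Divisor.degree R = e ∧ hD E 𝒢.A R ≤ B}.Finite

open Classical in
/-- [B] covolumes and multiplication by a section -/
def MulB (𝒢 : Glob K F) : Prop :=
  ∀ E' E E'' : Emb K F, 𝒢.Good E' → 𝒢.Good E → 𝒢.Good E'' → E''.m = E'.m + E.m →
    ∀ d : ℕ, 𝒢.c + d ≤ E'.m → ∃ C : ℝ, ∀ s : Finset (Place K F), 𝒢.Stable s → 𝒢.inf ∉ s →
      s.card = d → ∀ (q : Fin (E.r + 1) → ℚ) (Z : Finset (Place K F)),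
        E.dv (fun i => (q i : K)) = dvs Z → 𝒢.inf ∉ Z → Disjoint Z s →
        Cov E'' 𝒢.A (Z ∪ s) ≤
          Cov E' 𝒢.A s + ((E'.r + 1 : ℕ) - d : ℝ) * LG (fun v => sup 𝒢.A v (fun i => (q i : K))) + C

/-- [CMP] comparison of an embedding with a multiple -/
def Cmp {ι : Type*} (E₀ E : Emb K F) (k : ℕ) (A : AVFam K ι) : Prop :=
  ∃ C : ι → ℝ, MC C ∧ ∀ v, (∀ P, E₀.nx A v P ^ k ≤ C v * E.nx A v P ∧
    E.nx A v P ≤ C v * E₀.nx A v P ^ k) ∧
    ∀ P Q, E.dl A v P Q ≤ C v * E₀.dl A v P Q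

/-- [T1] Slater determinants of a multiple -/
def T1 {ι : Type*} (E₀ E : Emb K F) (k : ℕ) (A : AVFam K ι) (d : ℕ) : Prop :=
  ∃ C : ι → ℝ, MC C ∧ ∀ v (P : Fin d → Place K F),
    ((∏ i, E₀.nx A v (P i) ^ k) * ∏ i, ∏ j ∈ Finset.univ.filter (i < ·), E₀.dl A v (P i) (P j)) ≤
      C v * slat E A v P ∧
    slat E A v P ≤ C v *
      ((∏ i, E₀.nx A v (P i) ^ k) *
        ∏ i, ∏ j ∈ Finset.univ.filter (i < ·), E₀.dl A v (P i) (P j))

end Fermat.Agent.MWG
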