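import Fermat.Agent.MWG.Core
import Fermat.Agent.MWS.CovB2

/-!
# S17 (H), global part: the functions `σ` and `β`
-/

set_option autoImplicit false
set_option linter.unusedSectionVars false
set_option linter.style.haveILetI false

noncomputable section

namespace Fermat.Agent.MWG

open AlgebraicCurve Fermat.Agent.Curves Fermat.Agent.PicFlat Fermat.Agent.MWH SemilinearAut
  Fermat.Agent.GoodRed
open scoped Pointwise IntermediateField

/-- a symmetric sum -/
theorem sum_lt_eq {n : ℕ} (f : Fin n → Fin n → ℝ) (hs : ∀ i j, f i j = f j i)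
    (h0 : ∀ i, f i i = 0) :
    ∑ i, ∑ j, f i j = 2 * ∑ i, ∑ j ∈ Finset.univ.filter (i < ·), f i j := by
  have h1 : ∀ i j, f i j = (if i < j then f i j else 0) + (if j < i then f i j else 0) := by
    intro i j
    rcases lt_trichotomy i j with h | h | h
    · rw [if_pos h, if_neg h.not_gt, add_zero]
    · subst h; simp [h0]
    · rw [if_neg h.not_gt, if_pos h, zero_add]
  have h2 : ∑ i, ∑ j, f i j = ∑ i, ∑ j, (if i < j then f i j else 0) +
      ∑ i, ∑ j, (if j < i then f i j else 0) := by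
    rw [← Finset.sum_add_distrib]
    refine Finset.sum_congr rfl fun i _ => ?_
    rw [← Finset.sum_add_distrib]
    exact Finset.sum_congr rfl fun j _ => h1 i j
  have h3 : ∑ i, ∑ j, (if j < i then f i j else 0) = ∑ i, ∑ j, (if i < j then f i j else 0) := by
    rw [Finset.sum_comm]
    refine Finset.sum_congr rfl fun i _ => Finset.sum_congr rfl fun j _ => ?_
    rw [hs j i]
  rw [h2, h3, ← two_mul]
  congr 1
  exact Finset.sum_congr rfl fun i _ => (Finset.sum_filter _ _).symm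

section Alg

variable {K F ι : Type*} [Field K] [IsAlgClosed K] [CharZero K] [Field F] [Algebra K F] [IsFunctionField K F]
  (E : Emb K F) (A : AVFam K ι)

theorem lm_self (P : Place K F) : lm E A P P = 0 := by
  unfold lm LG
  simp only [MWS.EB.dl_self]
  simp

theorem lam_dvs (s t : Finset (Place K F)) :
    lam E A (dvs s) (dvs t) = ∑ P ∈ s, ∑ Q ∈ t, lm E A P Q := by
  classical
  have h1 : ∀ P, lam E A (Finsupp.single P 1) (dvs t) = ∑ Q ∈ t, lm E A P Q := by
    intro P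
    induction t using Finset.induction_on with
    | empty => rw [dvs_empty, lam_zero_right]; simp
    | insert Q t hQ ih =>
      rw [Finset.sum_insert hQ, ← ih, dvs, Finset.sum_insert hQ, ← dvs, lam_add_right]
      congr 1
      rw [lam_single_left, Finsupp.sum_single_index (by simp)]
      simp
  induction s using Finset.induction_on with
  | empty => rw [dvs_empty, lam_zero_left]; simp
  | insert P s hP ih =>
    rw [Finset.sum_insert hP, ← ih, dvs, Finset.sum_insert hP, ← dvs, lam_add_left, h1]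

theorem hgt_dvs (s : Finset (Place K F)) : hgt E A (dvs s) = ∑ P ∈ s, ht E A P := by
  classical
  induction s using Finset.induction_on with
  | empty => rw [dvs_empty, hgt_zero]; simp
  | insert P s hP ih =>
    rw [Finset.sum_insert hP, ← ih, dvs, Finset.sum_insert hP, ← dvs, hgt_add, hgt_single]
    simp

/-- `σ` -/
def sig (D : Divisor K F) : ℝ :=
  ((Divisor.degree D : ℝ) + E.g - 1) / E.m * hgt E A D - lam E A D D / 2

/-- `β` -/
def bet (D D' : Divisor K F) : ℝ :=
  lam E A D D' - (Divisor.degree D' : ℝ) / E.m * hgt E A D - (Divisor.degree D : ℝ) / E.m *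
    hgt E A D'

theorem sig_add (D D' : Divisor K F) :
    sig E A (D + D') = sig E A D + sig E A D' - bet E A D D' := by
  unfold sig bet
  rw [hgt_add, lam_add_left, lam_add_right, lam_add_right, lam_comm E A D' D, map_add]
  push_cast
  ring

theorem bet_comm (D D' : Divisor K F) : bet E A D D' = bet E A D' D := by
  unfold bet
  rw [lam_comm]
  ring

theorem bet_add_left (D D' D'' : Divisor K F) :
    bet E A (D + D') D'' = bet E A D D'' + bet E A D' D'' := by
  unfold bet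
  rw [hgt_add, lam_add_left, map_add]
  push_cast
  ring

theorem bet_add_right (D D' D'' : Divisor K F) :
    bet E A D (D' + D'') = bet E A D D' + bet E A D D'' := by
  rw [bet_comm, bet_add_left, bet_comm E A D' D, bet_comm E A D'' D]

theorem bet_zero_right (D : Divisor K F) : bet E A D 0 = 0 := by
  unfold bet
  rw [lam_zero_right, hgt_zero, map_zero]
  simp

end Alg

section Glo

variable {K F : Type*} [Field K] [IsAlgClosed K] [CharZero K] [Field F] [Algebra K F]
  [IsFunctionField K F] {𝒢 : Glob K F} {E₀ : Emb K F}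

/-- local inputs -/
structure Inp (𝒢 : Glob K F) : Prop where
  ub : ∀ E : Emb K F, 𝒢.Good E → 2 * 𝒢.c + 2 ≤ E.m → LocUB E 𝒢.A
  north : NorthcottN 𝒢
  cmp : ∀ (E₀ E : Emb K F) (k : ℕ), 𝒢.Good E₀ → 𝒢.Good E → 1 ≤ k → 2 * 𝒢.c + 2 ≤ E₀.m →
    E.m = k * E₀.m → Cmp E₀ E k 𝒢.A
  t1 : ∀ (E₀ E : Emb K F) (k d : ℕ), 𝒢.Good E₀ → 𝒢.Good E → 1 ≤ k → d ≤ k →
    2 * 𝒢.c + 2 ≤ E₀.m → E.m = k * E₀.m → T1 E₀ E k 𝒢.A d

/-- the base embedding -/
structure Base (𝒢 : Glob K F) (E₀ : Emb K F) : Prop where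
  good : 𝒢.Good E₀
  big : 2 * 𝒢.c + 2 ≤ E₀.m

theorem Base.c3 (hB : Base 𝒢 E₀) : 𝒢.c + 3 ≤ E₀.m := by
  have := E₀.large
  rwa [hB.good.c] at this

theorem le_mul_m (E₀ : Emb K F) (k : ℕ) : k ≤ k * E₀.m := Nat.le_mul_of_pos_right k E₀.pos

theorem m_le_mul (E₀ : Emb K F) {k : ℕ} (hk : 1 ≤ k) : E₀.m ≤ k * E₀.m :=
  Nat.le_mul_of_pos_left _ hk

theorem Base.exists_k (hB : Base 𝒢 E₀) {k : ℕ} (hk : 1 ≤ k) :
    ∃ E, 𝒢.Good E ∧ E.m = k * E₀.m := by
  refine exists_good 𝒢 ?_ ?_
  · have := hB.c3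
    have h2 := m_le_mul E₀ hk
    have h3 : (E₀.m : ℤ) ≤ ((k * E₀.m : ℕ) : ℤ) := by exact_mod_cast h2
    omega
  · exact (E₀.pos).trans (m_le_mul E₀ hk)

theorem Base.lb (hE : 𝒢.Good E₀) : LocLB E₀ 𝒢.A := locLB E₀ 𝒢.A

/-- comparison of heights -/
theorem exists_hgt_cmp {E : Emb K F} {k : ℕ} {ι : Type*} {A : AVFam K ι} (h : Cmp E₀ E k A) :
    ∃ C : ℝ, 0 ≤ C ∧ ∀ D : Divisor K F, 0 ≤ D →
      |hgt E A D - k * hgt E₀ A D| ≤ C * Divisor.degree D := by
  obtain ⟨C, hC, hc⟩ := h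
  refine ⟨LG C, LG_nonneg hC.one_le, fun D hD => ?_⟩
  have key : ∀ P, |ht E A P - k * ht E₀ A P| ≤ LG C := by
    intro P
    have a0 := ap_nx E₀ A P
    have a1 := ap_nx E A P
    have u1 : (k : ℝ) * ht E₀ A P ≤ LG C + ht E A P := by
      unfold ht
      rw [← LG_pow, ← LG_mul (ap_of_mc hC) a1]
      exact LG_mono (a0.pow k) ((ap_of_mc hC).mul a1) fun v => ((hc v).1 P).1
    have u2 : ht E A P ≤ LG C + (k : ℝ) * ht E₀ A P := by
      unfold ht
      rw [← LG_pow, ← LG_mul (ap_of_mc hC) (a0.pow k)]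
      exact LG_mono a1 ((ap_of_mc hC).mul (a0.pow k)) fun v => ((hc v).1 P).2
    rw [abs_le]
    constructor <;> linarith
  have e : hgt E A D - k * hgt E₀ A D =
      ∑ P ∈ D.support, (D P : ℝ) * (ht E A P - k * ht E₀ A P) := by
    unfold hgt
    rw [Finsupp.sum, Finsupp.sum, Finset.mul_sum, ← Finset.sum_sub_distrib]
    exact Finset.sum_congr rfl fun P _ => by ring
  rw [e]
  refine (Finset.abs_sum_le_sum_abs _ _).trans ?_
  rw [degree_eq_sum, Finsupp.sum]
  push_cast
  rw [Finset.mul_sum]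
  refine Finset.sum_le_sum fun P _ => ?_
  have hDP : (0 : ℝ) ≤ D P := by exact_mod_cast hD P
  rw [abs_mul, abs_of_nonneg hDP, mul_comm (LG C)]
  exact mul_le_mul_of_nonneg_left (key P) hDP

/-- covolumes -/
theorem exists_cov_eq {E : Emb K F} {k d : ℕ} {ι : Type*} [Nonempty ι] {A : AVFam K ι} (h : T1 E₀ E k A d) :
    ∃ C : ℝ, ∀ s : Finset (Place K F), s.card = d →
      |Cov E A s - (k * hgt E₀ A (dvs s) - lam E₀ A (dvs s) (dvs s) / 2)| ≤ C := by
  classical
  obtain ⟨C, hC, hc⟩ := h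
  refine ⟨LG C, fun s hs => ?_⟩
  subst hs
  set P : Fin s.card → Place K F := fun i => (s.equivFin.symm i : Place K F) with hP
  have hPinj : Function.Injective P := fun i j hij =>
    s.equivFin.symm.injective (Subtype.ext hij)
  have hsum : ∀ φ : Place K F → ℝ, ∑ i, φ (P i) = ∑ Q ∈ s, φ Q := by
    intro φ
    rw [hP]
    simp only
    rw [Equiv.sum_comp s.equivFin.symm (fun x : s => φ x), Finset.sum_coe_sort s φ]
  set X : ι → ℝ := fun v => (∏ i, E₀.nx A v (P i) ^ k) *
    ∏ i, ∏ j ∈ Finset.univ.filter (i < ·), E₀.dl A v (P i) (P j) with hX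
  have a1 : AP (fun v => ∏ i, E₀.nx A v (P i) ^ k) :=
    AP.prod _ fun i _ => (ap_nx E₀ A (P i)).pow k
  have a2 : ∀ i, AP (fun v => ∏ j ∈ Finset.univ.filter (i < ·), E₀.dl A v (P i) (P j)) := by
    intro i
    refine AP.prod _ fun j hj => ap_dl E₀ A fun hij => ?_
    rw [Finset.mem_filter] at hj
    exact hj.2.ne (hPinj hij)
  have a3 : AP (fun v => ∏ i, ∏ j ∈ Finset.univ.filter (i < ·), E₀.dl A v (P i) (P j)) :=
    AP.prod _ fun i _ => a2 i
  have aX : AP X := a1.mul a3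
  have hLX : LG X = k * hgt E₀ A (dvs s) - lam E₀ A (dvs s) (dvs s) / 2 := by
    rw [hX, LG_mul a1 a3, LG_prod _ fun i _ => (ap_nx E₀ A (P i)).pow k,
      LG_prod _ fun i _ => a2 i, hgt_dvs, lam_dvs]
    have e1 : ∑ i, LG (fun v => E₀.nx A v (P i) ^ k) = k * ∑ Q ∈ s, ht E₀ A Q := by
      rw [← hsum, Finset.mul_sum]
      exact Finset.sum_congr rfl fun i _ => LG_pow k
    have e2 : ∀ i, LG (fun v => ∏ j ∈ Finset.univ.filter (i < ·), E₀.dl A v (P i) (P j)) =
        -∑ j ∈ Finset.univ.filter (i < ·), lm E₀ A (P i) (P j) := by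
      intro i
      rw [LG_prod _ fun j hj => ap_dl E₀ A fun hij => ?_, ← Finset.sum_neg_distrib]
      · exact Finset.sum_congr rfl fun j _ => by unfold lm; ring
      · rw [Finset.mem_filter] at hj
        exact hj.2.ne (hPinj hij)
    rw [e1, Finset.sum_congr rfl fun i _ => e2 i, Finset.sum_neg_distrib]
    have e3 : ∑ Q ∈ s, ∑ Q' ∈ s, lm E₀ A Q Q' = ∑ i, ∑ j, lm E₀ A (P i) (P j) := by
      rw [← hsum fun Q => ∑ Q' ∈ s, lm E₀ A Q Q']
      exact Finset.sum_congr rfl fun i _ => (hsum fun Q' => lm E₀ A (P i) Q').symm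
    rw [e3, sum_lt_eq (fun i j => lm E₀ A (P i) (P j)) (fun i j => lm_comm E₀ A _ _)
      fun i => lm_self E₀ A _]
    ring
  have aS : AP (fun v => slat E A v P) := by
    unfold slat
    refine ap_nrm A ?_
    intro h0
    obtain ⟨v⟩ := ‹Nonempty ι›
    have h1 := (hc v P).1
    have h2 := aX.pos v
    have h3 : slat E A v P = 0 := by
      unfold slat
      rw [h0]
      haveI : Nonempty (Fin s.card → Fin (E.r + 1)) := ⟨fun _ => 0⟩
      exact AVFam.nrm_eq_zero.mpr rfl
    rw [h3, mul_zero] at h1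
    exact absurd h1 (not_le.mpr h2)
  have u1 : LG X ≤ LG C + Cov E A s := by
    unfold Cov
    rw [← LG_mul (ap_of_mc hC) aS]
    exact LG_mono aX ((ap_of_mc hC).mul aS) fun v => (hc v P).1
  have u2 : Cov E A s ≤ LG C + LG X := by
    unfold Cov
    rw [← LG_mul (ap_of_mc hC) aX]
    exact LG_mono aS ((ap_of_mc hC).mul aX) fun v => (hc v P).2
  rw [← hLX, abs_le]
  constructor <;> linarith

end Glo

end Fermat.Agent.MWG
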