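import Fermat.Agent.MWG.Sig

/-!
# S17 (H), global part: estimates for `σ` and `β`
-/

set_option autoImplicit false
set_option linter.unusedSectionVars false
set_option linter.style.haveILetI false

noncomputable section

namespace Fermat.Agent.MWG

open AlgebraicCurve Fermat.Agent.Curves Fermat.Agent.PicFlat Fermat.Agent.MWH SemilinearAut
  Fermat.Agent.GoodRed
open scoped Pointwise IntermediateField

variable {K F : Type*} [Field K] [IsAlgClosed K] [CharZero K] [Field F] [Algebra K F]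
  [IsFunctionField K F] {𝒢 : Glob K F} {E₀ : Emb K F}

/-- stable sets avoiding infinity -/
structure SS (𝒢 : Glob K F) (s : Finset (Place K F)) : Prop where
  st : 𝒢.Stable s
  ninf : 𝒢.inf ∉ s

theorem SS.union [DecidableEq (Place K F)] {s t : Finset (Place K F)} (hs : SS 𝒢 s)
    (ht : SS 𝒢 t) : SS 𝒢 (s ∪ t) :=
  ⟨hs.st.union ht.st, fun h => (Finset.mem_union.mp h).elim hs.ninf ht.ninf⟩

theorem SS.empty : SS 𝒢 ∅ := ⟨fun _ _ _ h => absurd h (Finset.notMem_empty _),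
  Finset.notMem_empty _⟩

/-- `D` is a section of `n ∞` -/
def Prin (𝒢 : Glob K F) (D : Divisor K F) (n : ℤ) : Prop :=
  ∃ f : F, f ≠ 0 ∧ divisorOf f + Finsupp.single 𝒢.inf n = D

theorem Prin.add {D D' : Divisor K F} {n n' : ℤ} (h : Prin 𝒢 D n) (h' : Prin 𝒢 D' n') :
    Prin 𝒢 (D + D') (n + n') := by
  obtain ⟨f, hf0, hf⟩ := h
  obtain ⟨f', hf0', hf'⟩ := h'
  refine ⟨f * f', mul_ne_zero hf0 hf0', ?_⟩
  rw [← hf, ← hf', Finsupp.single_add]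
  have : divisorOf (k := K) (f * f') = divisorOf f + divisorOf f' := by
    ext P
    rw [Finsupp.add_apply, divisorOf_apply, divisorOf_apply, divisorOf_apply,
      P.ord_mul hf0 hf0']
  rw [this]
  abel

theorem Prin.degree {D : Divisor K F} {n : ℤ} (h : Prin 𝒢 D n) : Divisor.degree D = n := by
  obtain ⟨f, -, hf⟩ := h
  rw [← hf, map_add, degree_divisorOf, degree_single_one, zero_add]

theorem r_pos {E : Emb K F} {d : ℕ} (h : (d : ℤ) + E.g ≤ E.m) : d < E.r + 1 := by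
  have := MWS.ell_inf E
  omega

theorem r_cast (E : Emb K F) (d : ℕ) : ((E.r + 1 : ℕ) : ℝ) - d = (E.m : ℝ) + 1 - E.g - d := by
  have := MWS.ell_inf E
  have h2 : (((E.r : ℤ) + 1 : ℤ) : ℝ) = ((E.m + 1 - E.g : ℤ) : ℝ) := by rw [this]
  push_cast at h2 ⊢
  rw [h2]

/-- the algebra of (A) -/
theorem alg_A {k m₀ r a b L x M C₁ C₂ C₃ C₄ hE dg : ℝ} (hk : 0 < k) (hm : 0 < m₀) (hr : 0 < r)
    (hM : M = k * m₀) (hdg : dg = k * m₀ - r)
    (h1 : k * (a + b) - C₄ * M ≤ hE) (h2 : hE ≤ M * x + C₃) (h3 : x ≤ (k * a - L + C₂) / r + C₁) :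
    b ≤ m₀ / r * (dg / m₀ * a - L) + (m₀ / r * C₂ + m₀ * C₁ + (C₃ + C₄ * M) / k) := by
  subst hM hdg
  have h4 : k * (a + b) ≤ k * m₀ * ((k * a - L + C₂) / r + C₁) + C₃ + C₄ * (k * m₀) := by
    have h5 : k * m₀ * x ≤ k * m₀ * ((k * a - L + C₂) / r + C₁) :=
      mul_le_mul_of_nonneg_left h3 (mul_pos hk hm).le
    linarith
  have h6 : k * (m₀ / r * ((k * m₀ - r) / m₀ * a - L) + (m₀ / r * C₂ + m₀ * C₁ +
      (C₃ + C₄ * (k * m₀)) / k)) - k * b = (k * m₀ * ((k * a - L + C₂) / r + C₁) + C₃ +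
        C₄ * (k * m₀)) - k * (a + b) := by
    field_simp
    ring
  have h7 : 0 ≤ k * (m₀ / r * ((k * m₀ - r) / m₀ * a - L) + (m₀ / r * C₂ + m₀ * C₁ +
      (C₃ + C₄ * (k * m₀)) / k)) - k * b := by rw [h6]; linarith
  have h8 : k * b ≤ k * (m₀ / r * ((k * m₀ - r) / m₀ * a - L) + (m₀ / r * C₂ + m₀ * C₁ +
      (C₃ + C₄ * (k * m₀)) / k)) := by linarith
  exact le_of_mul_le_mul_left h8 hk

/-- **(A)** -/
theorem exists_A (h : Inp 𝒢) (hB : Base 𝒢 E₀) (d : ℕ) : ∃ (k : ℕ) (κ C : ℝ), 1 ≤ k ∧ 0 < κ ∧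
    ∀ s : Finset (Place K F), SS 𝒢 s → s.card = d → ∃ R : Divisor K F, 0 ≤ R ∧ 𝒢.FixD R ∧
      Prin 𝒢 (dvs s + R) ((k * E₀.m : ℕ) : ℤ) ∧
      hgt E₀ 𝒢.A R ≤ κ * sig E₀ 𝒢.A (dvs s) + C := by
  classical
  set k : ℕ := d + 𝒢.c.natAbs + 𝒢.g.natAbs + 1 with hk
  have hk1 : 1 ≤ k := by omega
  obtain ⟨E, hE, hEm⟩ := hB.exists_k hk1
  have hkm : k ≤ E.m := by rw [hEm]; exact le_mul_m E₀ k
  have hmm : E₀.m ≤ E.m := by rw [hEm]; exact m_le_mul E₀ hk1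
  have hEg := hE.g
  have hEc := hE.c
  have hdr : d < E.r + 1 := r_pos (by rw [hEg]; omega)
  have hcd : 𝒢.c + d ≤ E.m := by omega
  have hbig := hB.big
  obtain ⟨C₁, h₁⟩ := MWS.siegelA 𝒢 E hE d hdr hcd
  obtain ⟨C₂, h₂⟩ := exists_cov_eq (h.t1 E₀ E k d hB.good hE hk1 (by omega) hB.big hEm)
  obtain ⟨C₃, h₃⟩ := exists_T2 hE (h.ub E hE (by omega)) (locLB E 𝒢.A)
  obtain ⟨C₄, -, h₄⟩ := exists_hgt_cmp (h.cmp E₀ E k hB.good hE hk1 hB.big hEm)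
  set r : ℝ := ((E.r + 1 : ℕ) : ℝ) - d with hr
  have hr0 : 0 < r := by
    rw [hr, sub_pos]
    exact_mod_cast hdr
  have hm0 : (0 : ℝ) < E₀.m := by exact_mod_cast E₀.pos
  have hk0 : (0 : ℝ) < k := by exact_mod_cast hk1
  refine ⟨k, E₀.m / r, E₀.m / r * C₂ + E₀.m * C₁ + (C₃ + C₄ * E.m) / k, hk1, div_pos hm0 hr0,
    fun s hs hcard => ?_⟩
  obtain ⟨q, hq, hqs, hqh⟩ := h₁ s hs.st hs.ninf hcard
  have hqne := ratvec_ne (K := K) hq
  set D := E.dv (fun i => (q i : K)) with hD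
  have hR0 : 0 ≤ D - dvs s := by
    intro P
    rw [Finsupp.sub_apply, Finsupp.coe_zero, Pi.zero_apply]
    by_cases hP : P ∈ s
    · rw [dvs_of_mem hP]
      have := MWS.EB.pos_of_dot E hqne (hqs P hP)
      rw [hD]
      omega
    · rw [dvs_of_notMem hP]
      have := Emb.dv_nonneg (E := E) hqne P
      rw [hD]
      omega
  have hDe : dvs s + (D - dvs s) = D := by abel
  refine ⟨D - dvs s, hR0, GD.FixD.sub (dv_fix hE q) (fixD_of_stable hs.st), ?_, ?_⟩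
  · rw [hDe, ← hEm]
    refine ⟨E.G (fun i => (q i : K)), E.G_ne_zero hqne, ?_⟩
    rw [← hE.inf]; rfl
  · have hH : hgt E₀ 𝒢.A D = hgt E₀ 𝒢.A (dvs s) + hgt E₀ 𝒢.A (D - dvs s) := by
      rw [← hgt_add, hDe]
    have e1 := (abs_le.mp (h₂ s hcard)).2
    have e2 := (abs_le.mp (h₃ q hq)).1
    have e3 := (abs_le.mp (h₄ D (fun P => Emb.dv_nonneg hqne P))).1
    have hdegD : ((Divisor.degree D : ℤ) : ℝ) = E.m := by
      rw [hD, E.dv_degree]; simp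
    rw [hdegD] at e3
    have hsig : sig E₀ 𝒢.A (dvs s) = ((d : ℝ) + 𝒢.g - 1) / E₀.m * hgt E₀ 𝒢.A (dvs s) -
        lam E₀ 𝒢.A (dvs s) (dvs s) / 2 := by
      unfold sig
      rw [degree_dvs, hcard, hB.good.g]
      push_cast
      rfl
    rw [hsig]
    have hMk : (E.m : ℝ) = k * E₀.m := by rw [hEm]; push_cast; rfl
    refine alg_A hk0 hm0 hr0 hMk ?_ (hE := hgt E 𝒢.A D) (x := LG fun v => sup 𝒢.A v
      fun i => (q i : K)) (C₁ := C₁) (C₂ := C₂) (C₃ := C₃) (C₄ := C₄) ?_ ?_ ?_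
    · rw [hr, r_cast, hMk, hEg]
      ring
    · rw [← hH]
      linarith
    · linarith
    · refine hqh.trans ?_
      rw [add_le_add_iff_right]
      refine div_le_div_of_nonneg_right ?_ hr0.le
      linarith

/-- `σ` is bounded below -/
theorem exists_sig_lb (h : Inp 𝒢) (hB : Base 𝒢 E₀) (d : ℕ) : ∃ C : ℝ,
    ∀ s : Finset (Place K F), SS 𝒢 s → s.card = d → -C ≤ sig E₀ 𝒢.A (dvs s) := by
  obtain ⟨k, κ, C, -, hκ, hA⟩ := exists_A h hB d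
  refine ⟨C / κ, fun s hs hcard => ?_⟩
  obtain ⟨R, hR0, -, -, hR⟩ := hA s hs hcard
  have h1 := (hgt_nonneg E₀ 𝒢.A hR0).trans hR
  rw [neg_le_iff_add_nonneg]
  have h2 : 0 ≤ κ * (sig E₀ 𝒢.A (dvs s) + C / κ) := by
    rw [mul_add, mul_div_cancel₀ _ hκ.ne']
    exact h1
  have h3 := nonneg_of_mul_nonneg_right h2 hκ
  linarith

/-- the algebra of (B) -/
theorem alg_B {k k' m₀ r a b Lz Ls l x M C₀ C₁ C₂ C₃ C₄ hE cov cov' d g : ℝ} (hk : 0 < k)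
    (hm : 0 < m₀) (hr : 0 ≤ r) (hM : M = k * m₀) (hrr : r = k' * m₀ + 1 - g - d)
    (h1 : (k + k') * (a + b) - (Lz + Ls + l) - C₁ ≤ cov)
    (h2 : cov ≤ cov' + r * x + C₀) (h3 : cov' ≤ k' * b - Ls + C₂)
    (h4 : M * x ≤ hE + C₃) (h5 : hE ≤ k * a + C₄ * M) :
    ((M + g - 1) / m₀ * a - Lz) - (l - d / m₀ * a - M / m₀ * b) ≤
      C₁ + C₂ + C₀ + r * (C₃ + C₄ * M) / M := by
  subst hM
  have hMp : 0 < k * m₀ := mul_pos hk hm
  have h6 : r * x ≤ r * ((k * a + C₄ * (k * m₀) + C₃) / (k * m₀)) := by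
    refine mul_le_mul_of_nonneg_left ?_ hr
    rw [le_div_iff₀ hMp]
    linarith
  have h7 : (k + k') * (a + b) - (Lz + Ls + l) ≤
      C₁ + (k' * b - Ls + C₂) + r * ((k * a + C₄ * (k * m₀) + C₃) / (k * m₀)) + C₀ := by linarith
  have h8 : (C₁ + (k' * b - Ls + C₂) + r * ((k * a + C₄ * (k * m₀) + C₃) / (k * m₀)) + C₀) -
      ((k + k') * (a + b) - (Lz + Ls + l)) =
      (C₁ + C₂ + C₀ + r * (C₃ + C₄ * (k * m₀)) / (k * m₀)) -
      (((k * m₀ + g - 1) / m₀ * a - Lz) - (l - d / m₀ * a - k * m₀ / m₀ * b)) := by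
    subst hrr
    field_simp
    ring
  linarith

/-- **(B)** -/
theorem exists_B (h : Inp 𝒢) (hB : Base 𝒢 E₀) {k : ℕ} (hk1 : 1 ≤ k) (d : ℕ) : ∃ C : ℝ,
    ∀ Z s : Finset (Place K F), SS 𝒢 Z → SS 𝒢 s → Prin 𝒢 (dvs Z) ((k * E₀.m : ℕ) : ℤ) →
      Disjoint Z s → s.card = d →
      sig E₀ 𝒢.A (dvs Z) - bet E₀ 𝒢.A (dvs Z) (dvs s) ≤ C := by
  classical
  set k' : ℕ := d + k * E₀.m + 𝒢.c.natAbs + 𝒢.g.natAbs + 1 with hk'
  have hk1' : 1 ≤ k' := by omega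
  obtain ⟨E, hE, hEm⟩ := hB.exists_k hk1
  obtain ⟨E', hE', hEm'⟩ := hB.exists_k hk1'
  obtain ⟨E'', hE'', hEm''⟩ := hB.exists_k (k := k + k') (by omega)
  have hkm : k ≤ E.m := by rw [hEm]; exact le_mul_m E₀ k
  have hmm : E₀.m ≤ E.m := by rw [hEm]; exact m_le_mul E₀ hk1
  have hkm' : k' ≤ E'.m := by rw [hEm']; exact le_mul_m E₀ k'
  have hEg := hE.g
  have hEg' := hE'.g
  have hbig := hB.big
  have hcd : 𝒢.c + d ≤ E'.m := by omega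
  have hdr : d < E'.r + 1 := r_pos (by rw [hEg']; omega)
  obtain ⟨C₀, h₀⟩ := MWS.mulB 𝒢 E' E E'' hE' hE hE'' (by rw [hEm, hEm', hEm'']; ring) d hcd
  obtain ⟨C₁, h₁⟩ := exists_cov_eq (h.t1 E₀ E'' (k + k') (E.m + d) hB.good hE'' (by omega)
    (by rw [hEm]; omega) hB.big hEm'')
  obtain ⟨C₂, h₂⟩ := exists_cov_eq (h.t1 E₀ E' k' d hB.good hE' hk1' (by omega) hB.big hEm')
  obtain ⟨C₃, h₃⟩ := exists_T2 hE (h.ub E hE (by omega)) (locLB E 𝒢.A)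
  obtain ⟨C₄, -, h₄⟩ := exists_hgt_cmp (h.cmp E₀ E k hB.good hE hk1 hB.big hEm)
  set r : ℝ := ((E'.r + 1 : ℕ) : ℝ) - d with hr
  have hr0 : 0 ≤ r := by
    rw [hr, sub_nonneg]
    exact_mod_cast hdr.le
  have hm0 : (0 : ℝ) < E₀.m := by exact_mod_cast E₀.pos
  have hk0 : (0 : ℝ) < k := by exact_mod_cast hk1
  refine ⟨C₁ + C₂ + C₀ + r * (C₃ + C₄ * E.m) / E.m, fun Z s hZ hs hpr hdis hcard => ?_⟩
  obtain ⟨f, hf0, hf⟩ := hpr
  obtain ⟨q, hq, hqZ⟩ := exists_ratvec hE (dvs_nonneg Z) (fixD_of_stable hZ.st) hf0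
    (by rw [hE.inf, hEm]; exact hf)
  have hqne := ratvec_ne (K := K) hq
  have hcardZ : Z.card = E.m := by
    have h1 := congrArg Divisor.degree hqZ
    rw [E.dv_degree, degree_dvs] at h1
    exact_mod_cast h1.symm
  have hcardU : (Z ∪ s).card = E.m + d := by
    rw [Finset.card_union_of_disjoint hdis, hcardZ, hcard]
  have e0 := h₀ s hs.st hs.ninf hcard q Z hqZ hZ.ninf hdis
  have e1 := (abs_le.mp (h₁ (Z ∪ s) hcardU)).1
  have e2 := (abs_le.mp (h₂ s hcard)).2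
  have e3 := (abs_le.mp (h₃ q hq)).2
  rw [hqZ] at e3
  have e4 := (abs_le.mp (h₄ (dvs Z) (dvs_nonneg Z))).2
  rw [degree_dvs, hcardZ] at e4
  have hMk : (E.m : ℝ) = k * E₀.m := by rw [hEm]; push_cast; rfl
  have hMk' : (E'.m : ℝ) = k' * E₀.m := by rw [hEm']; push_cast; rfl
  rw [dvs_union hdis, hgt_add, lam_add_left, lam_add_right, lam_add_right,
    lam_comm E₀ 𝒢.A (dvs s) (dvs Z)] at e1
  have hsig : sig E₀ 𝒢.A (dvs Z) - bet E₀ 𝒢.A (dvs Z) (dvs s) =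
      (((E.m : ℝ) + 𝒢.g - 1) / E₀.m * hgt E₀ 𝒢.A (dvs Z) - lam E₀ 𝒢.A (dvs Z) (dvs Z) / 2) -
      (lam E₀ 𝒢.A (dvs Z) (dvs s) - (d : ℝ) / E₀.m * hgt E₀ 𝒢.A (dvs Z) -
        (E.m : ℝ) / E₀.m * hgt E₀ 𝒢.A (dvs s)) := by
    unfold sig bet
    rw [degree_dvs, degree_dvs, hcard, hcardZ, hB.good.g]
    push_cast
    rfl
  rw [hsig]
  refine alg_B (k' := k') (x := LG fun v => sup 𝒢.A v fun i => (q i : K)) (hE := hgt E 𝒢.A (dvs Z))
    (cov := Cov E'' 𝒢.A (Z ∪ s)) (cov' := Cov E' 𝒢.A s) (Ls := lam E₀ 𝒢.A (dvs s) (dvs s) / 2)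
    (r := r) (C₀ := C₀) (C₁ := C₁) (C₂ := C₂) (C₃ := C₃) (C₄ := C₄) hk0 hm0 hr0 hMk ?_ ?_ ?_ ?_
    ?_ ?_
  · rw [hr, r_cast, hMk', hEg']
  · push_cast at e1
    linarith
  · exact e0
  · linarith
  · linarith
  · push_cast at e4
    linarith

/-- **(B1)** `σ` of a section is bounded -/
theorem exists_B1 (h : Inp 𝒢) (hB : Base 𝒢 E₀) {k : ℕ} (hk1 : 1 ≤ k) : ∃ C : ℝ,
    ∀ Z : Finset (Place K F), SS 𝒢 Z → Prin 𝒢 (dvs Z) ((k * E₀.m : ℕ) : ℤ) →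
      |sig E₀ 𝒢.A (dvs Z)| ≤ C := by
  obtain ⟨C, hC⟩ := exists_B h hB hk1 0
  obtain ⟨C', hC'⟩ := exists_sig_lb h hB (k * E₀.m)
  refine ⟨max C C', fun Z hZ hpr => ?_⟩
  have h1 := hC Z ∅ hZ SS.empty hpr (Finset.disjoint_empty_right Z) rfl
  rw [dvs_empty, bet_zero_right, sub_zero] at h1
  have h2 := hC' Z hZ (by
    have := hpr.degree
    rw [degree_dvs] at this
    exact_mod_cast this)
  rw [abs_le]
  have h3 := le_max_left C C'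
  have h4 := le_max_right C C'
  constructor <;> linarith

/-- complements -/
theorem exists_compl (hB : Base 𝒢 E₀) (D : Divisor K F) (hD : 𝒢.FixD D) {n : ℤ}
    (hn : 𝒢.c + 1 + Divisor.degree D ≤ n) (hn1 : 1 + Divisor.degree D ≤ n)
    (T : Finset (Place K F)) : ∃ s : Finset (Place K F), SS 𝒢 s ∧ Disjoint s T ∧
      Prin 𝒢 (D + dvs s) n := by
  classical
  have hI : 𝒢.FixD (Finsupp.single 𝒢.inf n - D) :=
    GD.FixD.sub (GD.FixD.single (𝒢 := 𝒢.toGD) 𝒢.fixinf _) hD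
  obtain ⟨f, hf0, hfix, s, hsT, hs⟩ := moving (𝒢 := 𝒢.toGD) 𝒢.rr hI
    (by rw [map_sub, degree_single_one]; omega)
    (by rw [map_sub, degree_single_one]; omega) (insert 𝒢.inf T)
  have hD' : 𝒢.FixD (dvs s) := by
    rw [← hs]
    exact GD.FixD.add (GD.Fix.div hfix) hI
  rw [Finset.disjoint_insert_right] at hsT
  refine ⟨s, ⟨stable_of_fixD hD', hsT.1⟩, hsT.2, f, hf0, ?_⟩
  rw [← hs]
  abel

/-- **(B4)** `β` with a section is bounded -/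
theorem exists_B4 (h : Inp 𝒢) (hB : Base 𝒢 E₀) {k : ℕ} (hk1 : 1 ≤ k) (d : ℕ) : ∃ C : ℝ,
    ∀ Z s : Finset (Place K F), SS 𝒢 Z → SS 𝒢 s → Prin 𝒢 (dvs Z) ((k * E₀.m : ℕ) : ℤ) →
      Disjoint Z s → s.card = d → |bet E₀ 𝒢.A (dvs Z) (dvs s)| ≤ C := by
  classical
  set k' : ℕ := d + 𝒢.c.natAbs + 1 with hk'
  have hk1' : 1 ≤ k' := by omega
  have hkm' : k' ≤ k' * E₀.m := le_mul_m E₀ k'
  obtain ⟨C₁, h₁⟩ := exists_B1 h hB hk1
  obtain ⟨C₂, h₂⟩ := exists_B1 h hB hk1'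
  obtain ⟨C₃, h₃⟩ := exists_B1 h hB (k := k + k') (by omega)
  obtain ⟨C₄, h₄⟩ := exists_B h hB hk1 d
  obtain ⟨C₅, h₅⟩ := exists_B h hB hk1 (k' * E₀.m - d)
  refine ⟨3 * (|C₁| + |C₂| + |C₃| + |C₄| + |C₅|), fun Z s hZ hs hpr hdis hcard => ?_⟩
  obtain ⟨s', hs', hsT, hpr'⟩ := exists_compl hB (dvs s) (fixD_of_stable hs.st)
    (n := ((k' * E₀.m : ℕ) : ℤ)) (by rw [degree_dvs, hcard]; omega)
    (by rw [degree_dvs, hcard]; omega) (Z ∪ s)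
  rw [Finset.disjoint_union_right] at hsT
  have hcard' : s'.card = k' * E₀.m - d := by
    have h1 := hpr'.degree
    rw [map_add, degree_dvs, degree_dvs, hcard] at h1
    omega
  have hss : Disjoint s s' := hsT.2.symm
  rw [← dvs_union hss] at hpr'
  have hZU : Disjoint Z (s ∪ s') := Finset.disjoint_union_right.mpr ⟨hdis, hsT.1.symm⟩
  have hprU : Prin 𝒢 (dvs (Z ∪ (s ∪ s'))) (((k + k') * E₀.m : ℕ) : ℤ) := by
    rw [dvs_union hZU]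
    have := hpr.add hpr'
    convert this using 1
    push_cast
    ring
  have a1 := abs_le.mp (h₁ Z hZ hpr)
  have a2 := abs_le.mp (h₂ (s ∪ s') (hs.union hs') hpr')
  have a3 := abs_le.mp (h₃ _ (hZ.union (hs.union hs')) hprU)
  have a4 := h₄ Z s hZ hs hpr hdis hcard
  have a5 := h₅ Z s' hZ hs' hpr hsT.1.symm hcard'
  rw [dvs_union hZU, sig_add, dvs_union hss, bet_add_right, ← dvs_union hss] at a3
  have b1 := le_abs_self C₁
  have b2 := le_abs_self C₂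
  have b3 := le_abs_self C₃
  have b4 := le_abs_self C₄
  have b5 := le_abs_self C₅
  have c1 := abs_nonneg C₁
  have c2 := abs_nonneg C₂
  have c3 := abs_nonneg C₃
  have c4 := abs_nonneg C₄
  have c5 := abs_nonneg C₅
  rw [abs_le]
  constructor <;> linarith [a1.1, a1.2, a2.1, a2.2, a3.1, a3.2]

end Fermat.Agent.MWG
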